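/-
S15 (M3b), helper9: evaluation at a place — residues, and the modular equation at a place.

`K` a field, `F` a field over `K`, `P` a place of `F / K`.

* `res_eq_zero_of_pos`, `pos_of_res_eq_zero` : `0 < ord_P f` iff `f` lies in the valuation ring
  and its residue vanishes;
* `ord_eq_zero_of_sub_pos` : `f(P) = b ≠ 0 → ord_P f = 0`;
* `ord_quot_sub_pos` : `f(P) = b ≠ 0`, `g(P) = a` ⟹ `(g / f^p)(P) = a / b^p`;
* `ord_nonneg_of_polyAt` : if `Φ(g, f) = 0` with `Φ` monic and `f` is regular at `P`, so is `g`;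
* `isIntegral_of_polyAt` : if `Φ(f, g) = 0` with `Φ` monic, `g(P) = 0` and `f(P) = c`, then `c` is
  an algebraic integer.
-/
import Mathlib
import Fermat.Agent.S24.PlaceBasic
import Fermat.Agent.S28.TowerDefs

set_option autoImplicit false

namespace Fermat.Agent.S15P.M3.Cusp9

open AlgebraicCurve Fermat.Agent.S24 Fermat.Agent.S28

noncomputable section

variable {K F : Type*} [Field K] [Field F] [Algebra K F] (P : Place K F)

theorem res_eq_zero_of_pos {f : F} (hf : 0 < P.ord f) :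
    ∃ h : f ∈ P.toValuationSubring,
      IsLocalRing.residue P.toValuationSubring ⟨f, h⟩ = 0 := by
  have hmem : f ∈ P.toValuationSubring := mem_of_ord_nonneg P hf.le
  refine ⟨hmem, ?_⟩
  rw [IsLocalRing.residue_eq_zero_iff, IsLocalRing.mem_maximalIdeal, mem_nonunits_iff]
  intro hu
  have hinv : f⁻¹ ∈ P.toValuationSubring := by
    obtain ⟨w, hw⟩ := hu.exists_right_inv
    have hw' : f * (w : F) = 1 := congrArg Subtype.val hw
    rw [← eq_inv_of_mul_eq_one_right hw']
    exact w.2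
  exact ((ord_pos_iff P).mp hf) hinv

theorem pos_of_res_eq_zero {f : F} (h : f ∈ P.toValuationSubring)
    (hres : IsLocalRing.residue P.toValuationSubring ⟨f, h⟩ = 0) (hne : f ≠ 0) :
    0 < P.ord f := by
  rw [ord_pos_iff]
  intro hinv
  rw [IsLocalRing.residue_eq_zero_iff, IsLocalRing.mem_maximalIdeal, mem_nonunits_iff] at hres
  apply hres
  exact isUnit_iff_exists_inv.mpr ⟨⟨f⁻¹, hinv⟩, Subtype.ext (mul_inv_cancel₀ hne)⟩

theorem ord_nonneg_of_sub_pos {f : F} {b : K} (hf : 0 < P.ord (f - algebraMap K F b)) :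
    0 ≤ P.ord f := by
  have h1 : f - algebraMap K F b ∈ P.toValuationSubring := mem_of_ord_nonneg P hf.le
  have h2 := add_mem h1 (P.algebraMap_mem' b)
  rw [sub_add_cancel] at h2
  exact ord_nonneg_of_mem P h2

theorem ord_eq_zero_of_sub_pos {f : F} {b : K} (hb : b ≠ 0)
    (hf : 0 < P.ord (f - algebraMap K F b)) : P.ord f = 0 := by
  have h0 := ord_nonneg_of_sub_pos P hf
  by_contra hne
  have hpos : 0 < P.ord f := lt_of_le_of_ne h0 (Ne.symm hne)
  have hf0 : f ≠ 0 := by
    rintro rfl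
    rw [Place.ord_zero] at hpos
    exact lt_irrefl _ hpos
  have hfb0 : f - algebraMap K F b ≠ 0 := by
    intro h
    rw [h, Place.ord_zero] at hf
    exact lt_irrefl _ hf
  have hb0 : f - (f - algebraMap K F b) ≠ 0 := by
    rw [sub_sub_cancel]
    exact (map_ne_zero _).mpr hb
  have h := ord_sub_ge P hf0 hfb0 hb0
  rw [sub_sub_cancel, ord_algebraMap] at h
  have := lt_min hpos hf
  omega

theorem ne_zero_of_sub_pos {f : F} {b : K} (_hb : b ≠ 0)
    (hf : 0 < P.ord (f - algebraMap K F b)) : f ≠ 0 := by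
  rintro rfl
  rw [zero_sub, ← map_neg, ord_algebraMap] at hf
  exact lt_irrefl _ hf

/-- `f(P) = b ≠ 0` and `g(P) = a` imply `(g / f^p)(P) = a / b^p`. -/
theorem ord_quot_sub_pos {f g : F} {b a : K} (p : ℕ) (hb : b ≠ 0)
    (hf : 0 < P.ord (f - algebraMap K F b)) (hg : 0 < P.ord (g - algebraMap K F a))
    (hne : g * f⁻¹ ^ p - algebraMap K F (a / b ^ p) ≠ 0) :
    0 < P.ord (g * f⁻¹ ^ p - algebraMap K F (a / b ^ p)) := by
  obtain ⟨hf1, hf2⟩ := res_eq_zero_of_pos P hf
  obtain ⟨hg1, hg2⟩ := res_eq_zero_of_pos P hg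
  have hbO : algebraMap K F b ∈ P.toValuationSubring := P.algebraMap_mem' b
  have haO : algebraMap K F a ∈ P.toValuationSubring := P.algebraMap_mem' a
  have hbiO : algebraMap K F b⁻¹ ∈ P.toValuationSubring := P.algebraMap_mem' b⁻¹
  have hfO : f ∈ P.toValuationSubring := by
    have := add_mem hf1 hbO
    rwa [sub_add_cancel] at this
  have hgO : g ∈ P.toValuationSubring := by
    have := add_mem hg1 haO
    rwa [sub_add_cancel] at this
  have hf0 : P.ord f = 0 := ord_eq_zero_of_sub_pos P hb hf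
  have hfne : f ≠ 0 := ne_zero_of_sub_pos P hb hf
  have hfiO : f⁻¹ ∈ P.toValuationSubring :=
    mem_of_ord_nonneg P (by rw [P.ord_inv, hf0, neg_zero])
  have e1 : IsLocalRing.residue P.toValuationSubring ⟨f, hfO⟩ =
      IsLocalRing.residue P.toValuationSubring ⟨algebraMap K F b, hbO⟩ := by
    have h : (⟨f - algebraMap K F b, hf1⟩ : P.toValuationSubring) =
        ⟨f, hfO⟩ - ⟨algebraMap K F b, hbO⟩ := rfl
    rw [h, map_sub, sub_eq_zero] at hf2
    exact hf2
  have e2 : IsLocalRing.residue P.toValuationSubring ⟨g, hgO⟩ =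
      IsLocalRing.residue P.toValuationSubring ⟨algebraMap K F a, haO⟩ := by
    have h : (⟨g - algebraMap K F a, hg1⟩ : P.toValuationSubring) =
        ⟨g, hgO⟩ - ⟨algebraMap K F a, haO⟩ := rfl
    rw [h, map_sub, sub_eq_zero] at hg2
    exact hg2
  have e3 : IsLocalRing.residue P.toValuationSubring ⟨f⁻¹, hfiO⟩ =
      IsLocalRing.residue P.toValuationSubring ⟨algebraMap K F b⁻¹, hbiO⟩ := by
    have h1 : IsLocalRing.residue P.toValuationSubring ⟨f, hfO⟩ *
        IsLocalRing.residue P.toValuationSubring ⟨f⁻¹, hfiO⟩ = 1 := by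
      rw [← map_mul, ← map_one (IsLocalRing.residue P.toValuationSubring)]
      congr 1
      exact Subtype.ext (mul_inv_cancel₀ hfne)
    have h2 : IsLocalRing.residue P.toValuationSubring ⟨algebraMap K F b, hbO⟩ *
        IsLocalRing.residue P.toValuationSubring ⟨algebraMap K F b⁻¹, hbiO⟩ = 1 := by
      rw [← map_mul, ← map_one (IsLocalRing.residue P.toValuationSubring)]
      congr 1
      apply Subtype.ext
      show algebraMap K F b * algebraMap K F b⁻¹ = 1
      rw [← map_mul, mul_inv_cancel₀ hb, map_one]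
    rw [e1] at h1
    calc IsLocalRing.residue P.toValuationSubring ⟨f⁻¹, hfiO⟩
        = IsLocalRing.residue P.toValuationSubring ⟨f⁻¹, hfiO⟩ *
          (IsLocalRing.residue P.toValuationSubring ⟨algebraMap K F b, hbO⟩ *
            IsLocalRing.residue P.toValuationSubring ⟨algebraMap K F b⁻¹, hbiO⟩) := by
          rw [h2, mul_one]
      _ = (IsLocalRing.residue P.toValuationSubring ⟨algebraMap K F b, hbO⟩ *
            IsLocalRing.residue P.toValuationSubring ⟨f⁻¹, hfiO⟩) *
            IsLocalRing.residue P.toValuationSubring ⟨algebraMap K F b⁻¹, hbiO⟩ := by ring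
      _ = IsLocalRing.residue P.toValuationSubring ⟨algebraMap K F b⁻¹, hbiO⟩ := by
          rw [h1, one_mul]
  have hmem : g * f⁻¹ ^ p - algebraMap K F (a / b ^ p) ∈ P.toValuationSubring :=
    sub_mem (mul_mem hgO (pow_mem hfiO p)) (P.algebraMap_mem' _)
  refine pos_of_res_eq_zero P hmem ?_ hne
  have e4 : (⟨g * f⁻¹ ^ p - algebraMap K F (a / b ^ p), hmem⟩ : P.toValuationSubring) =
      ⟨g, hgO⟩ * ⟨f⁻¹, hfiO⟩ ^ p - ⟨algebraMap K F a, haO⟩ * ⟨algebraMap K F b⁻¹, hbiO⟩ ^ p := by
    apply Subtype.ext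
    show g * f⁻¹ ^ p - algebraMap K F (a / b ^ p) =
      g * f⁻¹ ^ p - algebraMap K F a * algebraMap K F b⁻¹ ^ p
    rw [div_eq_mul_inv, map_mul, ← inv_pow, map_pow]
  rw [e4, map_sub, map_mul, map_mul, map_pow, map_pow, e2, e3, sub_self]

/-- `f(P) = b ≠ 0` implies `(1 / f)(P) = 1 / b`. -/
theorem ord_inv_sub_pos {f : F} {b : K} (hb : b ≠ 0)
    (hf : 0 < P.ord (f - algebraMap K F b)) : 0 < P.ord (f⁻¹ - algebraMap K F b⁻¹) := by
  have hf0 : P.ord f = 0 := ord_eq_zero_of_sub_pos P hb hf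
  have hfne : f ≠ 0 := ne_zero_of_sub_pos P hb hf
  have hbF : algebraMap K F b ≠ 0 := (map_ne_zero _).mpr hb
  have hfb0 : f - algebraMap K F b ≠ 0 := by
    intro h
    rw [h, Place.ord_zero] at hf
    exact lt_irrefl _ hf
  have hc : algebraMap K F (-b⁻¹) ≠ 0 := (map_ne_zero _).mpr (neg_ne_zero.mpr (inv_ne_zero hb))
  have e : f⁻¹ - algebraMap K F b⁻¹ =
      (f - algebraMap K F b) * (algebraMap K F (-b⁻¹) * f⁻¹) := by
    rw [map_neg, map_inv₀]
    field_simp
    ring
  rw [e, P.ord_mul hfb0 (mul_ne_zero hc (inv_ne_zero hfne)), P.ord_mul hc (inv_ne_zero hfne),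
    ord_algebraMap, P.ord_inv, hf0]
  omega

/-- If `Φ(g, f) = 0` with `Φ` monic in the first variable and `f` is regular at `P`, so is `g`. -/
theorem ord_nonneg_of_polyAt (Φ : Polynomial (Polynomial ℤ)) (hΦ : Φ.Monic) {f g : F}
    (hrel : (TD.polyAt Φ f).eval g = 0) (hf : 0 ≤ P.ord f) : 0 ≤ P.ord g := by
  have hfO : f ∈ P.toValuationSubring := mem_of_ord_nonneg P hf
  have hint : IsIntegral P.toValuationSubring g := by
    refine ⟨TD.polyAt Φ (⟨f, hfO⟩ : P.toValuationSubring), TD.polyAt_monic hΦ _, ?_⟩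
    rw [Polynomial.eval₂_eq_eval_map, TD.polyAt_map]
    exact hrel
  obtain ⟨y, hy⟩ := (IsIntegrallyClosed.isIntegral_iff (R := P.toValuationSubring) (K := F)).mp hint
  rw [← hy]
  exact ord_nonneg_of_mem P y.2

/-- If `Φ(f, g) = 0` with `Φ` monic in the first variable, `g(P) = 0` and `f(P) = c`, then `c` is
an algebraic integer. -/
theorem isIntegral_of_polyAt (Φ : Polynomial (Polynomial ℤ)) (hΦ : Φ.Monic) {f g : F} {c : K}
    (hrel : (TD.polyAt Φ g).eval f = 0) (hg : 0 < P.ord g)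
    (hf : 0 < P.ord (f - algebraMap K F c)) : IsIntegral ℤ c := by
  obtain ⟨hg1, hg2⟩ := res_eq_zero_of_pos P hg
  obtain ⟨hf1, hf2⟩ := res_eq_zero_of_pos P hf
  have hcO : algebraMap K F c ∈ P.toValuationSubring := P.algebraMap_mem' c
  have hfO : f ∈ P.toValuationSubring := by
    have := add_mem hf1 hcO
    rwa [sub_add_cancel] at this
  have e1 : IsLocalRing.residue P.toValuationSubring ⟨f, hfO⟩ =
      IsLocalRing.residue P.toValuationSubring ⟨algebraMap K F c, hcO⟩ := by
    have h : (⟨f - algebraMap K F c, hf1⟩ : P.toValuationSubring) =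
        ⟨f, hfO⟩ - ⟨algebraMap K F c, hcO⟩ := rfl
    rw [h, map_sub, sub_eq_zero] at hf2
    exact hf2
  have hrelO : (TD.polyAt Φ (⟨g, hg1⟩ : P.toValuationSubring)).eval ⟨f, hfO⟩ = 0 := by
    apply Subtype.val_injective
    have h := TD.map_eval_polyAt P.toValuationSubring.subtype Φ
      (⟨f, hfO⟩ : P.toValuationSubring) ⟨g, hg1⟩
    exact h.trans hrel
  have h3 := TD.map_eval_polyAt (IsLocalRing.residue P.toValuationSubring) Φ
    (⟨f, hfO⟩ : P.toValuationSubring) ⟨g, hg1⟩
  rw [hrelO, map_zero, hg2, e1] at h3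
  have h4 := TD.map_eval_polyAt
    ((IsLocalRing.residue P.toValuationSubring).comp (algebraMap K P.toValuationSubring)) Φ c
    (0 : K)
  rw [map_zero ((IsLocalRing.residue P.toValuationSubring).comp
    (algebraMap K P.toValuationSubring))] at h4
  have h5 : ((IsLocalRing.residue P.toValuationSubring).comp
      (algebraMap K P.toValuationSubring)) c =
      IsLocalRing.residue P.toValuationSubring ⟨algebraMap K F c, hcO⟩ := rfl
  rw [h5, ← h3] at h4
  have h6 : (TD.polyAt Φ (0 : K)).eval c = 0 :=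
    ((IsLocalRing.residue P.toValuationSubring).comp
      (algebraMap K P.toValuationSubring)).injective (by rw [h4, map_zero])
  refine ⟨TD.polyAt Φ (0 : ℤ), TD.polyAt_monic hΦ _, ?_⟩
  rw [Polynomial.eval₂_eq_eval_map, algebraMap_int_eq, TD.polyAt_map, map_zero]
  exact h6

end

end Fermat.Agent.S15P.M3.Cusp9
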