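/-
S15 (M3b), helper9: the integral series `1 / J(q^d)` and `J(q^p) / J(q)^p`.

* `exists_inv_of_isLead` : a Laurent series `t^n (1 + O(t))` over any commutative ring has an
  inverse `t^(-n) (1 + O(t))`;
* `exists_Jinv R d` : an inverse `g` of `J(q^d)` over `R`, `g = q^d (1 + O(q))`;
* `exists_U R p` : a series `U = 1 + O(q)` over `R` with `U * J(q)^p = J(q^p)`.
-/
import Mathlib
import Fermat.Agent.S28.ModEq.Conj
import Fermat.Agent.S28.TowerDefs

set_option autoImplicit false

namespace Fermat.Agent.S15P.M3.Cusp9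

open ModularCurve Fermat.Agent.S28 Fermat.Agent.S28.ModEq

noncomputable section

theorem exists_inv_of_isLead {R : Type*} [CommRing R] {f : LaurentSeries R} {n : ℤ}
    (hf : IsLead f n 1) : ∃ g : LaurentSeries R, IsLead g (-n) 1 ∧ f * g = 1 := by
  obtain ⟨u, hu, rfl⟩ := hf
  have hunit : IsUnit u := PowerSeries.isUnit_iff_constantCoeff.mpr (by rw [hu]; exact isUnit_one)
  obtain ⟨v, hv⟩ := hunit.exists_right_inv
  have hv1 : PowerSeries.constantCoeff v = 1 := by
    have h := congrArg PowerSeries.constantCoeff hv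
    rw [map_mul, hu, one_mul, map_one] at h
    exact h
  refine ⟨HahnSeries.single (-n) 1 * HahnSeries.ofPowerSeries ℤ R v, ⟨v, hv1, rfl⟩, ?_⟩
  have h2 : HahnSeries.single n (1 : R) * HahnSeries.single (-n) (1 : R) = 1 := by
    rw [HahnSeries.single_mul_single]
    simp
  calc HahnSeries.single n 1 * HahnSeries.ofPowerSeries ℤ R u *
        (HahnSeries.single (-n) 1 * HahnSeries.ofPowerSeries ℤ R v)
      = (HahnSeries.single n (1 : R) * HahnSeries.single (-n) (1 : R)) *
        (HahnSeries.ofPowerSeries ℤ R u * HahnSeries.ofPowerSeries ℤ R v) := by ring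
    _ = 1 := by rw [h2, ← RingHom.map_mul, hv, RingHom.map_one, mul_one]

theorem isLead_Jd (R : Type*) [CommRing R] (d : ℕ) [NeZero d] :
    IsLead (TD.Jd R d) (-(d : ℤ)) 1 := by
  rw [TD.Jd_eq R d]
  have h := isLead_qExpand d (isLead_jqModC R)
  rwa [mul_neg, mul_one] at h

/-- An inverse of `J(q^d)` over any commutative ring. -/
theorem exists_Jinv (R : Type*) [CommRing R] (d : ℕ) [NeZero d] :
    ∃ g : LaurentSeries R, IsLead g (d : ℤ) 1 ∧ TD.Jd R d * g = 1 := by
  obtain ⟨g, hg, h⟩ := exists_inv_of_isLead (isLead_Jd R d)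
  rw [neg_neg] at hg
  exact ⟨g, hg, h⟩

/-- The series `U = J(q^p) / J(q)^p = 1 + O(q)` over any commutative ring. -/
theorem exists_U (R : Type*) [CommRing R] (p : ℕ) [NeZero p] :
    ∃ U g : LaurentSeries R, IsLead U 0 1 ∧ TD.Jd R 1 * g = 1 ∧ U = TD.Jd R p * g ^ p := by
  obtain ⟨g, hg, h⟩ := exists_Jinv R 1
  refine ⟨TD.Jd R p * g ^ p, g, ?_, h, rfl⟩
  have h1 := (isLead_Jd R p).mul (hg.pow p)
  rw [one_pow, mul_one, Nat.cast_one, mul_one, neg_add_cancel] at h1
  exact h1

/-- A series `1 + O(t)` minus `1` has positive order (when nonzero). -/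
theorem order_sub_one_pos {K : Type*} [Field K] {f : LaurentSeries K} (hf : IsLead f 0 1)
    (hne : f - 1 ≠ 0) : 0 < (f - 1).order := by
  by_contra hle
  rw [not_lt] at hle
  apply hne
  rw [← HahnSeries.coeff_order_eq_zero, HahnSeries.coeff_sub]
  rcases lt_or_eq_of_le hle with hlt | heq
  · rw [hf.coeff_lt hlt, HahnSeries.coeff_one, if_neg (by omega), sub_zero]
  · rw [heq, hf.coeff_eq, HahnSeries.coeff_one, if_pos rfl, sub_self]

end

end Fermat.Agent.S15P.M3.Cusp9
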