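/-
S15 (M3b), helper9: the cusps of `X₀(p m)` over `ℚ̄` and the pair `(J(q), J(q^p))`, `p` prime.

* `pole_jBar_eq` : at level `p` the poles of `j` are the `q`-place and its Fricke image
  (pole masses `1 + p = [F_p : ℚ̄(j)]`);
* `cusp_types` : at level `p m`, at every pole `P` of `J(q)`:
  either `ord_P J(q^p) = p * ord_P J(q)` and `J(q^p) / J(q)^p - 1` vanishes at `P` (type `∞`),
  or `ord_P J(q) = p * ord_P J(q^p)` (type `0`).
-/
import Mathlib
import Fermat.Agent.S24.FrickeRamif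
import Fermat.Agent.S20.IndexGamma0
import Fermat.Agent.Lib.FF.PlaceInf
import Fermat.Agent.Lib.FF.CharP.Fund
import Fermat.Agent.ESJ.HeckeInputs
import Fermat.Agent.S15P.M3.Cusp9.Series

set_option autoImplicit false
set_option linter.unusedSectionVars false

namespace Fermat.Agent.S15P.M3.Cusp9

open ModularCurve AlgebraicCurve Fermat.Agent.S24 Fermat.Agent.S24.Fricke Fermat.Agent.S28
open Fermat.Agent.S28.ModEq Fermat.Agent.Lib.FF.PlaceInf
open scoped IntermediateField

noncomputable section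

theorem coe_jFormal9 (N : ℕ) [NeZero N] (d : Dv N) :
    ((jFormal N d : FN N) : LaurentSeries KQ) = TD.Jd KQ d.1 := by
  haveI := d.neZero
  show coeffEmb KQ (qExpand ℚ d.1 jq) = _
  rw [← TD.Jd_rat, coeffEmb, TD.coeffMap_Jd]

theorem jFormal_ne_zero9 (N : ℕ) [NeZero N] (d : Dv N) : jFormal N d ≠ 0 := by
  intro h
  have h1 := congrArg Subtype.val h
  rw [coe_jFormal9] at h1
  exact ValInd.Jd_ne_zero (K := KQ) d.1 d.neZero.out h1

theorem ord_inf_jFormal (N : ℕ) [NeZero N] (d : Dv N) :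
    (placeInfL KQ N).ord (jFormal N d) = -(d.1 : ℤ) := by
  rw [placeInfL_ord KQ N _ (jFormal_ne_zero9 N d), coe_jFormal9, ValInd.order_Jd d.1 d.neZero.out]

section LevelP

variable (p : ℕ) [NeZero p]

theorem finrank_jBar_prime (hp : p.Prime) : Module.finrank KQ⟮jBar p⟯ (FN p) = p + 1 := by
  rw [Fermat.Agent.S24.finrank_jBar]
  have h1 : Nat.card (XN p) = (CongruenceSubgroup.Gamma0 p).index := rfl
  rw [h1, Fermat.Agent.S20.Count.index_Gamma0 p]
  have h2 := Fermat.Agent.S20.Count.Index.dedekindPsi_mul_of_not_dvd hp one_ne_zero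
    (fun h => hp.ne_one (Nat.dvd_one.mp h))
  rw [mul_one, ModularCurve.dedekindPsi_one, mul_one] at h2
  exact h2

/-- At level `p` the poles of `j` are the `q`-place and its Fricke image. -/
theorem pole_jBar_eq (hp : p.Prime) (P : Place KQ (FN p)) (hP : P.ord (jBar p) < 0) :
    P = placeInfL KQ p ∨ P = fricke p • placeInfL KQ p := by
  classical
  by_contra hcon
  rw [not_or] at hcon
  obtain ⟨h1, h2⟩ := hcon
  haveI := finiteDimensional_jBar p
  obtain ⟨hfin, hsum⟩ := Fermat.Agent.Lib.FF.CharP.polesOf_finite_sum (jBar p)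
    (transcendental_jBar p)
  rw [finrank_jBar_prime p hp] at hsum
  have hi : (placeInfL KQ p).ord (jBar p) = -1 := by
    have h := ord_inf_jFormal p ⟨1, one_dvd p⟩
    rw [Nat.cast_one] at h
    exact h
  have ho : (fricke p • placeInfL KQ p).ord (jBar p) = -(p : ℤ) := by
    rw [ord_fricke_smul, fricke_jBar]
    exact ord_inf_jFormal p ⟨p, dvd_rfl⟩
  have hp1 := hp.one_lt
  have hne : placeInfL KQ p ≠ fricke p • placeInfL KQ p := by
    intro h
    rw [← h, hi] at ho
    omega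
  have hsub : ({placeInfL KQ p, fricke p • placeInfL KQ p, P} : Finset (Place KQ (FN p))) ⊆
      hfin.toFinset := by
    intro v hv
    rw [Set.Finite.mem_toFinset]
    simp only [Finset.mem_insert, Finset.mem_singleton] at hv
    rcases hv with rfl | rfl | rfl
    · show (placeInfL KQ p).ord (jBar p) < 0
      rw [hi]; omega
    · show (fricke p • placeInfL KQ p).ord (jBar p) < 0
      rw [ho]; omega
    · exact hP
  have hle := Finset.sum_le_sum_of_subset_of_nonneg hsub (f := fun v => -v.ord (jBar p))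
    (fun v hv _ => by
      rw [Set.Finite.mem_toFinset] at hv
      have : v.ord (jBar p) < 0 := hv
      omega)
  rw [hsum, Finset.sum_insert (by
      simp only [Finset.mem_insert, Finset.mem_singleton, not_or]
      exact ⟨hne, Ne.symm h1⟩),
    Finset.sum_insert (by
      simp only [Finset.mem_singleton]
      exact Ne.symm h2), Finset.sum_singleton, hi, ho] at hle
  push_cast at hle
  omega

end LevelP

section LevelM

variable (p m : ℕ) [NeZero p] [NeZero m]

theorem alpha_jFormal (d : Dv p) :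
    heckeAlphaBar KQ p m (jFormal p d) = jFormal (p * m) ⟨d.1, Dvd.dvd.mul_right d.2 m⟩ := by
  apply Subtype.ext
  rw [coe_heckeAlphaBar]
  rfl

/-- The series of `J(q^p) / J(q)^p` at level `p` is `1 + O(q)`. -/
theorem isLead_u :
    IsLead (((jFormal p ⟨p, dvd_rfl⟩ * (jBar p)⁻¹ ^ p : FN p)) : LaurentSeries KQ) 0 1 := by
  obtain ⟨U, g, hU, hg, rfl⟩ := exists_U KQ p
  have hg' : g = (TD.Jd KQ 1)⁻¹ := eq_inv_of_mul_eq_one_right hg
  have e : (((jFormal p ⟨p, dvd_rfl⟩ * (jBar p)⁻¹ ^ p : FN p)) : LaurentSeries KQ) =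
      TD.Jd KQ p * g ^ p := by
    rw [hg']
    push_cast
    rw [coe_jFormal9, jBar, coe_jFormal9]
  rw [e]
  exact hU

/-- **The two types of cusps** of `X₀(p m)` for the pair `(J(q), J(q^p))`. -/
theorem cusp_types (hp : p.Prime) (P : Place KQ (FN (p * m)))
    (hP : P.ord (jFormal (p * m) ⟨1, one_dvd _⟩) < 0) :
    (P.ord (jFormal (p * m) ⟨p, dvd_mul_right p m⟩) =
        p * P.ord (jFormal (p * m) ⟨1, one_dvd _⟩) ∧
      (jFormal (p * m) ⟨p, dvd_mul_right p m⟩ * (jFormal (p * m) ⟨1, one_dvd _⟩)⁻¹ ^ p - 1 ≠ 0 →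
        0 < P.ord (jFormal (p * m) ⟨p, dvd_mul_right p m⟩ *
          (jFormal (p * m) ⟨1, one_dvd _⟩)⁻¹ ^ p - 1))) ∨
    P.ord (jFormal (p * m) ⟨1, one_dvd _⟩) =
      p * P.ord (jFormal (p * m) ⟨p, dvd_mul_right p m⟩) := by
  have hα : (heckeAlphaBar KQ p m).toRingHom.IsIntegral :=
    Fermat.Agent.ESJ.HeckeInputs.heckeAlphaBarIntegral p m
  have e1 : heckeAlphaBar KQ p m (jBar p) = jFormal (p * m) ⟨1, one_dvd _⟩ :=
    alpha_jFormal p m ⟨1, one_dvd p⟩
  have e2 : heckeAlphaBar KQ p m (jFormal p ⟨p, dvd_rfl⟩) =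
      jFormal (p * m) ⟨p, dvd_mul_right p m⟩ := alpha_jFormal p m ⟨p, dvd_rfl⟩
  have hord := fun g : FN p => Place.ord_restrictAlong (heckeAlphaBar KQ p m) hα P g
  generalize hedef : (Place.ramificationIndexAlong (heckeAlphaBar KQ p m) P : ℤ) = e at hord
  have he0 : 0 ≤ e := by rw [← hedef]; exact Nat.cast_nonneg _
  generalize P.restrictAlong (heckeAlphaBar KQ p m) hα = P' at hord
  have h1 := hord (jBar p)
  rw [e1] at h1
  have h2 := hord (jFormal p ⟨p, dvd_rfl⟩)
  rw [e2] at h2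
  have hepos : 0 < e := by
    rcases he0.lt_or_eq with h | h
    · exact h
    · rw [h1, ← h, zero_mul] at hP
      exact absurd hP (lt_irrefl _)
  have hP' : P'.ord (jBar p) < 0 := by
    rw [h1] at hP
    by_contra hcon
    rw [not_lt] at hcon
    have := mul_nonneg he0 hcon
    omega
  have hi1 : (placeInfL KQ p).ord (jBar p) = -1 := by
    have h := ord_inf_jFormal p ⟨1, one_dvd p⟩
    rw [Nat.cast_one] at h
    exact h
  have hip : (placeInfL KQ p).ord (jFormal p ⟨p, dvd_rfl⟩) = -(p : ℤ) :=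
    ord_inf_jFormal p ⟨p, dvd_rfl⟩
  rcases pole_jBar_eq p hp P' hP' with hPi | hPo
  · left
    rw [hPi] at h1 h2
    rw [hi1] at h1
    rw [hip] at h2
    refine ⟨by rw [h1, h2]; ring, ?_⟩
    intro hne
    have e3 : jFormal (p * m) ⟨p, dvd_mul_right p m⟩ *
        (jFormal (p * m) ⟨1, one_dvd _⟩)⁻¹ ^ p - 1 =
        heckeAlphaBar KQ p m (jFormal p ⟨p, dvd_rfl⟩ * (jBar p)⁻¹ ^ p - 1) := by
      rw [map_sub, map_mul, map_pow, map_inv₀, map_one, e1, e2]
    rw [e3] at hne ⊢
    have hne' : jFormal p ⟨p, dvd_rfl⟩ * (jBar p)⁻¹ ^ p - 1 ≠ 0 := fun h =>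
      hne (by rw [h, map_zero])
    rw [hord, hPi, placeInfL_ord KQ p _ hne']
    have hcoe : ((jFormal p ⟨p, dvd_rfl⟩ * (jBar p)⁻¹ ^ p - 1 : FN p) : LaurentSeries KQ) =
        ((jFormal p ⟨p, dvd_rfl⟩ * (jBar p)⁻¹ ^ p : FN p) : LaurentSeries KQ) - 1 := by
      push_cast
      rfl
    have hne'' : ((jFormal p ⟨p, dvd_rfl⟩ * (jBar p)⁻¹ ^ p : FN p) : LaurentSeries KQ) - 1 ≠ 0 := by
      rw [← hcoe]
      exact fun h => hne' (Subtype.ext h)
    have hpos := order_sub_one_pos (isLead_u p) hne''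
    rw [hcoe]
    exact mul_pos hepos hpos
  · right
    rw [hPo, ord_fricke_smul] at h1 h2
    rw [fricke_jBar, hip] at h1
    have hf : fricke p (jFormal p ⟨p, dvd_rfl⟩) = jBar p := fricke_jN p
    rw [hf, hi1] at h2
    rw [h1, h2]
    ring

end LevelM

end

end Fermat.Agent.S15P.M3.Cusp9
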