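/-
S15 (M3b), helper9: abstract push-forward lemmas for a place reduction `r`
(`IsPlaceReductionAlong A π N r`: `r_* div f = div f̄` for integral `f` with `f̄ ≠ 0`).

* `mapDomain_nonneg`, `mapDomain_pos`, `mapDomain_eq_mul` : the combinatorial core (fibrewise
  control of a push-forward);
* `ord_red_pos_of_fibre` : if `f` has no pole on the fibre of `Q` and a zero at one point of it,
  then `f̄` has a zero at `Q`;
* `ord_red_eq_mul_of_fibre` : if `ord_P f₁ = n * ord_P f₂` on the fibre of `Q`, then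
  `ord_Q f̄₁ = n * ord_Q f̄₂`;
* `ord_red_pos_of_pos` : zeros specialise to zeros as soon as the degrees
  `[F : L(f)] = [F̄ : k(f̄)]` agree.
-/
import Mathlib
import Fermat.Agent.CAR.Ell.CuspMap

set_option autoImplicit false
set_option linter.unusedSectionVars false

namespace Fermat.Agent.S15P.M3.Cusp9

open ModularCurve AlgebraicCurve
open scoped IntermediateField

noncomputable section

/-! ### The combinatorial core -/

theorem mapDomain_apply_eq_sum {α β : Type*} [DecidableEq β] (r : α → β) (D : α →₀ ℤ) (Q : β) :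
    Finsupp.mapDomain r D Q = ∑ P ∈ D.support, if r P = Q then D P else 0 := by
  rw [Finsupp.mapDomain, Finsupp.sum_apply]
  simp only [Finsupp.sum, Finsupp.single_apply]

theorem mapDomain_nonneg {α β : Type*} (r : α → β) (D : α →₀ ℤ) (Q : β)
    (h : ∀ P, r P = Q → 0 ≤ D P) : 0 ≤ Finsupp.mapDomain r D Q := by
  classical
  rw [mapDomain_apply_eq_sum]
  refine Finset.sum_nonneg fun P _ => ?_
  split_ifs with hPQ
  · exact h P hPQ
  · exact le_rfl

theorem mapDomain_pos {α β : Type*} (r : α → β) (D : α →₀ ℤ) (Q : β)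
    (h : ∀ P, r P = Q → 0 ≤ D P) (P₀ : α) (h₀ : r P₀ = Q) (hP₀ : 0 < D P₀) :
    0 < Finsupp.mapDomain r D Q := by
  classical
  rw [mapDomain_apply_eq_sum]
  have hmem : P₀ ∈ D.support := by
    rw [Finsupp.mem_support_iff]
    omega
  have hle : (if r P₀ = Q then D P₀ else 0) ≤ ∑ P ∈ D.support, if r P = Q then D P else 0 := by
    refine Finset.single_le_sum (f := fun P => if r P = Q then D P else 0) (fun P _ => ?_) hmem
    show 0 ≤ if r P = Q then D P else 0
    split_ifs with hPQ
    · exact h P hPQ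
    · exact le_rfl
  rw [if_pos h₀] at hle
  omega

theorem mapDomain_eq_zero {α β : Type*} (r : α → β) (D : α →₀ ℤ) (Q : β)
    (h : ∀ P, r P = Q → D P = 0) : Finsupp.mapDomain r D Q = 0 := by
  classical
  rw [mapDomain_apply_eq_sum]
  refine Finset.sum_eq_zero fun P _ => ?_
  split_ifs with hPQ
  · exact h P hPQ
  · rfl

theorem mapDomain_eq_mul {α β : Type*} (r : α → β) (D₁ D₂ : α →₀ ℤ) (Q : β) (n : ℤ)
    (h : ∀ P, r P = Q → D₁ P = n * D₂ P) :
    Finsupp.mapDomain r D₁ Q = n * Finsupp.mapDomain r D₂ Q := by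
  have h0 := mapDomain_eq_zero r (D₁ - n • D₂) Q (fun P hP => by
    rw [Finsupp.sub_apply, Finsupp.smul_apply, h P hP, smul_eq_mul, sub_self])
  rw [Finsupp.mapDomain_sub, Finsupp.mapDomain_smul, Finsupp.sub_apply, Finsupp.smul_apply,
    smul_eq_mul] at h0
  omega

/-! ### The function-field statements -/

section FF

variable {L : Type*} [Field L] [Algebra ℚ L] [IsAlgClosed L] {A : ValuationSubring L}
  {k : Type} [Field k] [IsAlgClosed k] {π : A →+* k} {N : ℕ} [NeZero N]

/-- The divisor of a function (finitely many zeros and poles). -/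
def divOf (x₀ : ↥(laurentBaseChange L (modularFunctionFieldFull N)))
    [FiniteDimensional ↥(L⟮x₀⟯) ↥(laurentBaseChange L (modularFunctionFieldFull N))]
    (f : ↥(laurentBaseChange L (modularFunctionFieldFull N))) :
    Divisor L ↥(laurentBaseChange L (modularFunctionFieldFull N)) :=
  Finsupp.ofSupportFinite (fun P => P.ord f) (Fermat.Agent.Lib.FF.CharP.finite_ord_ne_zero x₀ f)

theorem divOf_apply (x₀ : ↥(laurentBaseChange L (modularFunctionFieldFull N)))
    [FiniteDimensional ↥(L⟮x₀⟯) ↥(laurentBaseChange L (modularFunctionFieldFull N))]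
    (f : ↥(laurentBaseChange L (modularFunctionFieldFull N)))
    (P : Place L ↥(laurentBaseChange L (modularFunctionFieldFull N))) :
    divOf x₀ f P = P.ord f := rfl

/-- `ord_Q f̄ = (r_* div f)(Q)`. -/
theorem ord_red_eq_mapDomain
    (x₀ : ↥(laurentBaseChange L (modularFunctionFieldFull N)))
    [FiniteDimensional ↥(L⟮x₀⟯) ↥(laurentBaseChange L (modularFunctionFieldFull N))]
    {r : Place L ↥(laurentBaseChange L (modularFunctionFieldFull N)) →
      Place k ↥(modularFunctionFieldFullC k N)}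
    (hr : IsPlaceReductionAlong A π N r) (y : LaurentSeries A)
    (f : ↥(laurentBaseChange L (modularFunctionFieldFull N)))
    (fb : ↥(modularFunctionFieldFullC k N))
    (hL : coeffMap A.subtype y = (f : LaurentSeries L))
    (hk : coeffMap π y = (fb : LaurentSeries k)) (hne : fb ≠ 0)
    (Q : Place k ↥(modularFunctionFieldFullC k N)) :
    Q.ord fb = Finsupp.mapDomain r (divOf x₀ f) Q := by
  have hy : coeffMap A.subtype y ∈ laurentBaseChange L (modularFunctionFieldFull N) := by
    rw [hL]; exact f.2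
  have hyk : coeffMap π y ∈ modularFunctionFieldFullC k N := by
    rw [hk]; exact fb.2
  have e1 : (⟨coeffMap A.subtype y, hy⟩ : ↥(laurentBaseChange L (modularFunctionFieldFull N))) = f :=
    Subtype.ext hL
  have e2 : (⟨coeffMap π y, hyk⟩ : ↥(modularFunctionFieldFullC k N)) = fb := Subtype.ext hk
  have hne' : coeffMap π y ≠ 0 := by
    rw [hk]
    exact fun h => hne (Subtype.ext h)
  have h := hr.2 y hy hyk hne' (divOf x₀ f) (fun P => by rw [e1]; rfl) Q
  rw [e2] at h
  exact h.symm

/-- If `f` has no pole on the fibre of `Q` and a zero at a point of it, `f̄` vanishes at `Q`. -/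
theorem ord_red_pos_of_fibre
    (x₀ : ↥(laurentBaseChange L (modularFunctionFieldFull N)))
    [FiniteDimensional ↥(L⟮x₀⟯) ↥(laurentBaseChange L (modularFunctionFieldFull N))]
    {r : Place L ↥(laurentBaseChange L (modularFunctionFieldFull N)) →
      Place k ↥(modularFunctionFieldFullC k N)}
    (hr : IsPlaceReductionAlong A π N r) (y : LaurentSeries A)
    (f : ↥(laurentBaseChange L (modularFunctionFieldFull N)))
    (fb : ↥(modularFunctionFieldFullC k N))
    (hL : coeffMap A.subtype y = (f : LaurentSeries L))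
    (hk : coeffMap π y = (fb : LaurentSeries k)) (hne : fb ≠ 0)
    (Q : Place k ↥(modularFunctionFieldFullC k N))
    (h : ∀ P, r P = Q → 0 ≤ P.ord f)
    (P₀ : Place L ↥(laurentBaseChange L (modularFunctionFieldFull N))) (h₀ : r P₀ = Q)
    (hP₀ : 0 < P₀.ord f) : 0 < Q.ord fb := by
  rw [ord_red_eq_mapDomain x₀ hr y f fb hL hk hne Q]
  exact mapDomain_pos r _ Q h P₀ h₀ hP₀

/-- If `ord_P f₁ = n * ord_P f₂` on the fibre of `Q`, then `ord_Q f̄₁ = n * ord_Q f̄₂`. -/
theorem ord_red_eq_mul_of_fibre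
    (x₀ : ↥(laurentBaseChange L (modularFunctionFieldFull N)))
    [FiniteDimensional ↥(L⟮x₀⟯) ↥(laurentBaseChange L (modularFunctionFieldFull N))]
    {r : Place L ↥(laurentBaseChange L (modularFunctionFieldFull N)) →
      Place k ↥(modularFunctionFieldFullC k N)}
    (hr : IsPlaceReductionAlong A π N r) (y₁ y₂ : LaurentSeries A)
    (f₁ f₂ : ↥(laurentBaseChange L (modularFunctionFieldFull N)))
    (fb₁ fb₂ : ↥(modularFunctionFieldFullC k N))
    (hL₁ : coeffMap A.subtype y₁ = (f₁ : LaurentSeries L))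
    (hk₁ : coeffMap π y₁ = (fb₁ : LaurentSeries k)) (hne₁ : fb₁ ≠ 0)
    (hL₂ : coeffMap A.subtype y₂ = (f₂ : LaurentSeries L))
    (hk₂ : coeffMap π y₂ = (fb₂ : LaurentSeries k)) (hne₂ : fb₂ ≠ 0)
    (Q : Place k ↥(modularFunctionFieldFullC k N)) (n : ℤ)
    (h : ∀ P, r P = Q → P.ord f₁ = n * P.ord f₂) :
    Q.ord fb₁ = n * Q.ord fb₂ := by
  rw [ord_red_eq_mapDomain x₀ hr y₁ f₁ fb₁ hL₁ hk₁ hne₁ Q,
    ord_red_eq_mapDomain x₀ hr y₂ f₂ fb₂ hL₂ hk₂ hne₂ Q]
  exact mapDomain_eq_mul r _ _ Q n h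

/-- **Zeros specialise to zeros** as soon as the degrees agree. -/
theorem ord_red_pos_of_pos
    {r : Place L ↥(laurentBaseChange L (modularFunctionFieldFull N)) →
      Place k ↥(modularFunctionFieldFullC k N)}
    (hr : IsPlaceReductionAlong A π N r) (y : LaurentSeries A)
    (f : ↥(laurentBaseChange L (modularFunctionFieldFull N)))
    (fb : ↥(modularFunctionFieldFullC k N))
    (hL : coeffMap A.subtype y = (f : LaurentSeries L))
    (hk : coeffMap π y = (fb : LaurentSeries k))
    (htrL : Transcendental L f) (htrk : Transcendental k fb)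
    [FiniteDimensional ↥(L⟮f⟯) ↥(laurentBaseChange L (modularFunctionFieldFull N))]
    [FiniteDimensional ↥(k⟮fb⟯) ↥(modularFunctionFieldFullC k N)]
    (hdeg : Module.finrank ↥(L⟮f⟯) ↥(laurentBaseChange L (modularFunctionFieldFull N)) =
      Module.finrank ↥(k⟮fb⟯) ↥(modularFunctionFieldFullC k N))
    (P : Place L ↥(laurentBaseChange L (modularFunctionFieldFull N)))
    (hP : 0 < P.ord f) : 0 < (r P).ord fb := by
  classical
  have hne : fb ≠ 0 := fun h0 => htrk (by rw [h0]; exact isAlgebraic_zero)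
  have hpush : ∀ Q, Finsupp.mapDomain r (divOf f f) Q = Q.ord fb := fun Q =>
    (ord_red_eq_mapDomain f hr y f fb hL hk hne Q).symm
  obtain ⟨hZL, hsumL⟩ := Fermat.Agent.Lib.FF.CharP.zerosOf_finite_sum f htrL
  obtain ⟨hZk, hsumk⟩ := Fermat.Agent.Lib.FF.CharP.zerosOf_finite_sum fb htrk
  have hZ : ∀ P', P' ∈ hZL.toFinset ↔ 0 < (divOf f f) P' := by
    intro P'
    rw [Set.Finite.mem_toFinset]
    rfl
  have hsum : ∑ P' ∈ hZL.toFinset, (divOf f f) P' ≤ ∑ Q ∈ hZk.toFinset, Q.ord fb := by
    rw [hsumk, ← hdeg, ← hsumL]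
    exact le_of_eq (Finset.sum_congr rfl fun P' _ => rfl)
  have hmem := Fermat.Agent.CAR.Ell.mapsTo_of_mapDomain r _ _ hpush hZL.toFinset hZ hZk.toFinset
    hsum P ((hZ P).mpr hP)
  rw [Set.Finite.mem_toFinset] at hmem
  exact hmem

end FF

end

end Fermat.Agent.S15P.M3.Cusp9
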