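/-
S15 (M3b), helper9: the degree of `J(q)` in characteristic `0` and `ℓ`, and the reduction of the
points of `X₀(N)` with integral / non-integral `j`-invariant.

`A` a valuation subring of `ℚ̄`, `π : A → k` its residue map, `N ≠ 0` in `k`, `r` a place reduction.

* `finrank_jBar_eq_Jbar` : `[F : ℚ̄(J(q))] = [F̄ : k(J̄(q))]`;
* `red_pos_of_int` : a point with `j = c ∈ A` reduces to a point with `j̄ = c̄`;
* `red_neg_of_nonint` : a point with `j = b ∉ A` reduces to a pole of `j̄`.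
-/
import Mathlib
import Fermat.Agent.CAR.Ell.FrickeRed
import Fermat.Agent.S24.FrickeRamif
import Fermat.Agent.S15P.M3.Cusp9.Push
import Fermat.Agent.S15P.M3.Cusp9.Series
import Fermat.Agent.S15P.M3.Cusp9.Eval
import Fermat.Agent.S15P.M3.Cusp9.Level

set_option autoImplicit false
set_option linter.unusedSectionVars false
set_option linter.style.haveILetI false

namespace Fermat.Agent.S15P.M3.Cusp9

open ModularCurve AlgebraicCurve Fermat.Agent.S24 Fermat.Agent.S28 Fermat.Agent.Lib.Red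
open Fermat.Agent.S28.ModEq Fermat.Agent.CAR.Ell.FrickeRed Fermat.Agent.Lib.FF.ModL
open scoped IntermediateField

noncomputable section

variable {A : ValuationSubring KQ} {k : Type} [Field k] {π : A →+* k} {N : ℕ} [NeZero N]

/-- An automorphism of `F / K` preserves the degree over a simple subextension. -/
theorem finrank_adjoin_algEquiv {K F : Type*} [Field K] [Field F] [Algebra K F] (w : F ≃ₐ[K] F)
    (x : F) : Module.finrank K⟮x⟯ F = Module.finrank K⟮w x⟯ F := by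
  have hmap : (K⟮x⟯).map (w : F →ₐ[K] F) = K⟮w x⟯ := by
    rw [IntermediateField.adjoin_map, Set.image_singleton]
    rfl
  let e1 : K⟮x⟯ ≃ₐ[K] (K⟮x⟯).map (w : F →ₐ[K] F) := IntermediateField.equivMap _ _
  let e2 : (K⟮x⟯).map (w : F →ₐ[K] F) ≃ₐ[K] K⟮w x⟯ := IntermediateField.equivOfEq hmap
  refine Algebra.finrank_eq_of_equiv_equiv ((e1.trans e2 : _ ≃ₐ[K] _) : _ ≃+* _)
    ((w : F ≃ₐ[K] F) : F ≃+* F) ?_
  ext y
  rfl

/-- `[F̄ : k(J̄(q^N))] = [F̄ : k(J̄(q))]` (Fricke). -/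
theorem finrank_xk_eq (hπ : ∀ a : A, ¬ IsUnit a → π a = 0) (hsurj : Function.Surjective π)
    (hNk : (N : k) ≠ 0) :
    Module.finrank k⟮xk k N⟯ ↥(modularFunctionFieldFullC k N) =
      Module.finrank k⟮Jbar k N⟯ ↥(modularFunctionFieldFullC k N) := by
  rw [finrank_adjoin_algEquiv (frickeBar hπ hsurj hNk) (xk k N), frickeBar_xk hπ hsurj hNk]

/-- **The degree of `J(q)` is the same in characteristic `0` and `ℓ`.** -/
theorem finrank_jBar_eq_Jbar (hπ : ∀ a : A, ¬ IsUnit a → π a = 0) (hsurj : Function.Surjective π)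
    (hNk : (N : k) ≠ 0) :
    Module.finrank KQ⟮jBar N⟯ (FN N) =
      Module.finrank k⟮Jbar k N⟯ ↥(modularFunctionFieldFullC k N) := by
  rw [← Fricke.finrank_jN_eq N, ← finrank_xk_eq hπ hsurj hNk]
  have h1 := (BaseFn.Data.ofJ A π N).finrank_eq hπ hsurj hNk
  rw [BaseFn.Data.ofJ_x, BaseFn.Data.ofJ_xt, BranchInst.xL_eq_jFormal] at h1
  exact h1

theorem coe_Jbar9 (k : Type) [Field k] (N : ℕ) [NeZero N] :
    ((Jbar k N : ↥(modularFunctionFieldFullC k N)) : LaurentSeries k) = TD.Jd k 1 :=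
  (TD.Jd_one k).symm

theorem Jbar_ne_zero9 (k : Type) [Field k] (N : ℕ) [NeZero N] : Jbar k N ≠ 0 := fun h =>
  transcendental_Jbar k N (h ▸ isAlgebraic_zero)

theorem jBar_ne_zero9 (N : ℕ) [NeZero N] : jBar N ≠ 0 := jFormal_ne_zero9 N ⟨1, one_dvd N⟩

variable [IsAlgClosed k]

/-- **A point with `j = c ∈ A` reduces to a point with `j̄ = c̄`.** -/
theorem red_pos_of_int (hπ : ∀ a : A, ¬ IsUnit a → π a = 0) (hsurj : Function.Surjective π)
    (hNk : (N : k) ≠ 0)
    {r : Place KQ (FN N) → Place k ↥(modularFunctionFieldFullC k N)}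
    (hr : IsPlaceReductionAlong A π N r) (P : Place KQ (FN N)) (c : A)
    (hP : 0 < P.ord (jBar N - algebraMap KQ (FN N) (c : KQ))) :
    0 < (r P).ord (Jbar k N - algebraMap k ↥(modularFunctionFieldFullC k N) (π c)) := by
  haveI := finiteDimensional_jBar N
  haveI := finiteDimensional_Jbar k N
  haveI : FiniteDimensional KQ⟮jBar N - algebraMap KQ (FN N) (c : KQ)⟯ (FN N) :=
    finiteDimensional_adjoin_congr (adjoin_sub_algebraMap_eq (jBar N) (c : KQ)).symm
  haveI : FiniteDimensional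
      k⟮Jbar k N - algebraMap k ↥(modularFunctionFieldFullC k N) (π c)⟯
      ↥(modularFunctionFieldFullC k N) :=
    finiteDimensional_adjoin_congr (adjoin_sub_algebraMap_eq (Jbar k N) (π c)).symm
  refine ord_red_pos_of_pos hr (TD.Jd A 1 - HahnSeries.C c) _ _ ?_ ?_
    (transcendental_sub_algebraMap (transcendental_jBar N) _)
    (transcendental_sub_algebraMap (transcendental_Jbar k N) _) ?_ P hP
  · show incl A (TD.Jd A 1 - HahnSeries.C c) = _
    rw [map_sub, incl_Jd, incl_C, AddSubgroupClass.coe_sub, jBar, coe_jFormal9,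
      Fermat.Agent.CAR.Ell.coe_algebraMap_laurentBaseChange]
  · show rbar A π (TD.Jd A 1 - HahnSeries.C c) = _
    rw [map_sub, rbar_Jd, rbar_C, AddSubgroupClass.coe_sub, coe_Jbar9,
      Fermat.Agent.CAR.Ell.coe_algebraMap_fullC]
  · rw [finrank_adjoin_congr (adjoin_sub_algebraMap_eq (jBar N) (c : KQ)),
      finrank_adjoin_congr (adjoin_sub_algebraMap_eq (Jbar k N) (π c))]
    exact finrank_jBar_eq_Jbar hπ hsurj hNk

/-- **A point with `j = b ∉ A` reduces to a pole of `j̄`.** -/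
theorem red_neg_of_nonint (hπ : ∀ a : A, ¬ IsUnit a → π a = 0) (hsurj : Function.Surjective π)
    (hNk : (N : k) ≠ 0)
    {r : Place KQ (FN N) → Place k ↥(modularFunctionFieldFullC k N)}
    (hr : IsPlaceReductionAlong A π N r) (P : Place KQ (FN N)) (b : KQ) (hb : b ∉ A)
    (hP : 0 < P.ord (jBar N - algebraMap KQ (FN N) b)) :
    (r P).ord (Jbar k N) < 0 := by
  have hb0 : b ≠ 0 := fun h => hb (h ▸ A.zero_mem)
  have hbi : b⁻¹ ∈ A := (A.mem_or_inv_mem b).resolve_left hb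
  have hnu : ¬ IsUnit (⟨b⁻¹, hbi⟩ : A) := by
    intro hu
    obtain ⟨w, hw⟩ := hu.exists_right_inv
    have hw' : b⁻¹ * (w : KQ) = 1 := congrArg Subtype.val hw
    have hwb : (w : KQ) = b := by rw [eq_inv_of_mul_eq_one_right hw', inv_inv]
    exact hb (hwb ▸ w.2)
  obtain ⟨g, -, hg⟩ := exists_Jinv A 1
  haveI := finiteDimensional_jBar N
  haveI := finiteDimensional_Jbar k N
  have hadjL : KQ⟮(jBar N)⁻¹ - algebraMap KQ (FN N) b⁻¹⟯ = KQ⟮jBar N⟯ :=
    (adjoin_sub_algebraMap_eq (jBar N)⁻¹ b⁻¹).trans (adjoin_inv_eq (jBar N))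
  have hadjk : k⟮(Jbar k N)⁻¹⟯ = k⟮Jbar k N⟯ := adjoin_inv_eq (Jbar k N)
  haveI : FiniteDimensional KQ⟮(jBar N)⁻¹ - algebraMap KQ (FN N) b⁻¹⟯ (FN N) :=
    finiteDimensional_adjoin_congr hadjL.symm
  haveI : FiniteDimensional k⟮(Jbar k N)⁻¹⟯ ↥(modularFunctionFieldFullC k N) :=
    finiteDimensional_adjoin_congr hadjk.symm
  have hpos : 0 < P.ord ((jBar N)⁻¹ - algebraMap KQ (FN N) b⁻¹) := ord_inv_sub_pos P hb0 hP
  have h := ord_red_pos_of_pos hr (g - HahnSeries.C (⟨b⁻¹, hbi⟩ : A))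
    ((jBar N)⁻¹ - algebraMap KQ (FN N) b⁻¹) (Jbar k N)⁻¹ ?_ ?_
    (transcendental_sub_algebraMap (transcendental_inv (transcendental_jBar N)) _)
    (transcendental_inv (transcendental_Jbar k N)) ?_ P hpos
  · rw [Place.ord_inv] at h
    omega
  · show incl A (g - HahnSeries.C (⟨b⁻¹, hbi⟩ : A)) = _
    have h1 := congrArg (incl A) hg
    rw [map_mul, map_one, incl_Jd] at h1
    rw [map_sub, incl_C, eq_inv_of_mul_eq_one_right h1, AddSubgroupClass.coe_sub,
      IntermediateField.coe_inv, jBar, coe_jFormal9,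
      Fermat.Agent.CAR.Ell.coe_algebraMap_laurentBaseChange]
  · show rbar A π (g - HahnSeries.C (⟨b⁻¹, hbi⟩ : A)) = _
    have h1 := congrArg (rbar A π) hg
    rw [map_mul, map_one, rbar_Jd] at h1
    rw [map_sub, rbar_C, hπ _ hnu, map_zero, sub_zero, eq_inv_of_mul_eq_one_right h1,
      IntermediateField.coe_inv, coe_Jbar9]
  · rw [finrank_adjoin_congr hadjL, finrank_adjoin_congr hadjk]
    exact finrank_jBar_eq_Jbar hπ hsurj hNk

end

end Fermat.Agent.S15P.M3.Cusp9
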