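/-
S15 (M3b), helper9: the fibre of a place reduction over a pole of `j̄`.

`A` a valuation subring of `ℚ̄`, `π : A → k` its residue map, level `p m` with `p` prime and
`p m ≠ 0` in `k`, `r` a place reduction.  If `r P` is a pole of `J̄(q)` then `P` is a cusp or a
point with non-integral `j`-invariant, and in both cases:

* `u = J(q^p) / J(q)^p` is regular at `P`;
* either `ord_P J(q^p) = p * ord_P J(q)` and `u - 1` vanishes at `P` (cusp of type `∞`),
  or `ord_P (1 / J(q)) = p * ord_P (1 / J(q^p))` (cusp of type `0`, or non-integral point).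
-/
import Mathlib
import Fermat.Agent.S24.ARest
import Fermat.Agent.S15P.M3.Cusp9.Deg

set_option autoImplicit false
set_option linter.unusedSectionVars false
set_option linter.style.haveILetI false

namespace Fermat.Agent.S15P.M3.Cusp9

open ModularCurve AlgebraicCurve Fermat.Agent.S24 Fermat.Agent.S28 Fermat.Agent.Lib.Red
open Fermat.Agent.Lib.FF.ModL
open scoped IntermediateField

noncomputable section

variable {A : ValuationSubring KQ} {k : Type} [Field k] {π : A →+* k}
variable (p m : ℕ) [NeZero p] [NeZero m]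

/-- `Φ(J(q), J(q^p)) = 0` in `F`. -/
theorem rel₁_F (D : TD.ModEq p) :
    (TD.polyAt D.Φ (jFormal (p * m) ⟨p, dvd_mul_right p m⟩)).eval (jBar (p * m)) = 0 := by
  have h := D.rel₁' (NeZero.ne p) KQ 1 one_ne_zero
  rw [one_mul] at h
  have hinj : Function.Injective
      ((modularFunctionFieldBar (p * m)).val : FN (p * m) →+* LaurentSeries KQ) :=
    Subtype.val_injective
  apply hinj
  rw [TD.map_eval_polyAt, map_zero]
  show (TD.polyAt D.Φ ((jFormal (p * m) ⟨p, dvd_mul_right p m⟩ : FN (p * m)) :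
    LaurentSeries KQ)).eval ((jBar (p * m) : FN (p * m)) : LaurentSeries KQ) = 0
  rw [coe_jFormal9, jBar, coe_jFormal9]
  exact h

/-- `Φ(J(q^p), J(q)) = 0` in `F`. -/
theorem rel₂_F (D : TD.ModEq p) :
    (TD.polyAt D.Φ (jBar (p * m))).eval (jFormal (p * m) ⟨p, dvd_mul_right p m⟩) = 0 := by
  have h := D.rel₂' (NeZero.ne p) KQ 1 one_ne_zero
  rw [one_mul] at h
  have hinj : Function.Injective
      ((modularFunctionFieldBar (p * m)).val : FN (p * m) →+* LaurentSeries KQ) :=
    Subtype.val_injective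
  apply hinj
  rw [TD.map_eval_polyAt, map_zero]
  show (TD.polyAt D.Φ ((jBar (p * m) : FN (p * m)) : LaurentSeries KQ)).eval
    ((jFormal (p * m) ⟨p, dvd_mul_right p m⟩ : FN (p * m)) : LaurentSeries KQ) = 0
  rw [coe_jFormal9, jBar, coe_jFormal9]
  exact h

variable [IsAlgClosed k]

/-- **The fibre over a pole of `j̄`.** -/
theorem fibre_local (hp : p.Prime) (D : TD.ModEq p) (hπ : ∀ a : A, ¬ IsUnit a → π a = 0)
    (hsurj : Function.Surjective π) (hNk : ((p * m : ℕ) : k) ≠ 0)
    {r : Place KQ (FN (p * m)) → Place k ↥(modularFunctionFieldFullC k (p * m))}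
    (hr : IsPlaceReductionAlong A π (p * m) r) (P : Place KQ (FN (p * m)))
    (hP : (r P).ord (Jbar k (p * m)) < 0) :
    0 ≤ P.ord (jFormal (p * m) ⟨p, dvd_mul_right p m⟩ * (jBar (p * m))⁻¹ ^ p) ∧
    ((P.ord (jFormal (p * m) ⟨p, dvd_mul_right p m⟩) = p * P.ord (jBar (p * m)) ∧
        (jFormal (p * m) ⟨p, dvd_mul_right p m⟩ * (jBar (p * m))⁻¹ ^ p - 1 ≠ 0 →
          0 < P.ord (jFormal (p * m) ⟨p, dvd_mul_right p m⟩ * (jBar (p * m))⁻¹ ^ p - 1))) ∨
      P.ord (jBar (p * m))⁻¹ = p * P.ord (jFormal (p * m) ⟨p, dvd_mul_right p m⟩)⁻¹) := by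
  haveI := finiteDimensional_jBar (p * m)
  haveI : Algebra.IsAlgebraic KQ⟮jBar (p * m)⟯ (FN (p * m)) := Algebra.IsAlgebraic.of_finite _ _
  have hJne := jBar_ne_zero9 (p * m)
  have hJpne := jFormal_ne_zero9 (p * m) ⟨p, dvd_mul_right p m⟩
  have hordu : P.ord (jFormal (p * m) ⟨p, dvd_mul_right p m⟩ * (jBar (p * m))⁻¹ ^ p) =
      P.ord (jFormal (p * m) ⟨p, dvd_mul_right p m⟩) - p * P.ord (jBar (p * m)) := by
    rw [P.ord_mul hJpne (pow_ne_zero _ (inv_ne_zero hJne)), ← zpow_natCast, P.ord_zpow,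
      P.ord_inv]
    ring
  rcases ARest.exists_value (jBar (p * m)) (transcendental_jBar (p * m)) P with hneg | ⟨c, hc⟩
  · rcases cusp_types p m hp P hneg with ⟨h1, h2⟩ | h1
    · have h1' : P.ord (jFormal (p * m) ⟨p, dvd_mul_right p m⟩) = p * P.ord (jBar (p * m)) := h1
      exact ⟨by rw [hordu, h1', sub_self], Or.inl ⟨h1', h2⟩⟩
    · have h1' : P.ord (jBar (p * m)) =
          p * P.ord (jFormal (p * m) ⟨p, dvd_mul_right p m⟩) := h1
      refine ⟨?_, Or.inr (by rw [P.ord_inv, P.ord_inv, h1']; ring)⟩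
      rw [hordu, h1']
      have hp1 : (1 : ℤ) ≤ p := by exact_mod_cast hp.one_lt.le
      have hJp : P.ord (jFormal (p * m) ⟨p, dvd_mul_right p m⟩) < 0 := by
        rw [h1'] at hneg
        by_contra hcon
        rw [not_lt] at hcon
        have := mul_nonneg (le_trans zero_le_one hp1) hcon
        omega
      nlinarith
  · by_cases hcA : c ∈ A
    · exfalso
      have h1 := red_pos_of_int hπ hsurj hNk hr P ⟨c, hcA⟩ hc
      have h2 := ord_nonneg_of_sub_pos (r P) h1
      omega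
    · have hc0 : c ≠ 0 := fun h => hcA (h ▸ A.zero_mem)
      have hJ0 : P.ord (jBar (p * m)) = 0 := ord_eq_zero_of_sub_pos P hc0 hc
      have hJp0 : 0 ≤ P.ord (jFormal (p * m) ⟨p, dvd_mul_right p m⟩) :=
        ord_nonneg_of_polyAt P D.Φ D.monic (rel₂_F p m D) (le_of_eq hJ0.symm)
      have hJp1 : P.ord (jFormal (p * m) ⟨p, dvd_mul_right p m⟩) = 0 := by
        by_contra hne
        have hpos : 0 < P.ord (jFormal (p * m) ⟨p, dvd_mul_right p m⟩) :=
          lt_of_le_of_ne hJp0 (Ne.symm hne)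
        have hint := isIntegral_of_polyAt P D.Φ D.monic (rel₁_F p m D) hpos hc
        have hx' : IsIntegral A c := hint.tower_top
        obtain ⟨y, hy⟩ := (IsIntegrallyClosed.isIntegral_iff (R := A) (K := KQ)).1 hx'
        exact hcA (hy ▸ y.2)
      exact ⟨by rw [hordu, hJ0, hJp1, mul_zero, sub_zero],
        Or.inr (by rw [P.ord_inv, P.ord_inv, hJ0, hJp1, neg_zero, mul_zero])⟩

end

end Fermat.Agent.S15P.M3.Cusp9
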