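/-
S15 (M3b), helper9: a place over a non-integral `j`-invariant reduces to a cusp, and the type of
the cusp is read off `a / b ^ p` — the abstract core.

`A` a valuation subring of `ℚ̄`, `π : A → k` its residue map, level `p m` with `p` prime and
`p m ≠ 0` in `k`, `r` a place reduction; `x` a place with `J(q)(x) = b ∉ A`, `J(q^p)(x) = a`.

* `cusp_unit` : if `a / b ^ p` is a unit of `A` then `ord J̄(q^p) = p * ord J̄(q)` at `r x`;
* `cusp_zero` : if `a / b ^ p` is in the maximal ideal then `ord J̄(q) = p * ord J̄(q^p)` at `r x`.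
-/
import Mathlib
import Fermat.Agent.S15P.M3.Cusp9.Fibre

set_option autoImplicit false
set_option linter.unusedSectionVars false
set_option linter.style.haveILetI false

namespace Fermat.Agent.S15P.M3.Cusp9

open ModularCurve AlgebraicCurve Fermat.Agent.S24 Fermat.Agent.S28 Fermat.Agent.Lib.Red
open Fermat.Agent.Lib.FF.ModL Fermat.Agent.CAR.Ell.FrickeRed
open scoped IntermediateField

noncomputable section

variable {A : ValuationSubring KQ} {k : Type} [Field k] {π : A →+* k}
variable (p m : ℕ) [NeZero p] [NeZero m]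

theorem Jdk_ne_zero9 (k : Type) [Field k] (N : ℕ) [NeZero N] {d : ℕ} (hd : d ∣ N) (hd0 : d ≠ 0) :
    Jdk k N hd ≠ 0 := by
  intro h
  have h1 := congrArg Subtype.val h
  exact ValInd.Jd_ne_zero (K := k) d hd0 h1

variable (A π) in
/-- The integral series of `u = J(q^p) / J(q)^p`, `1 / J(q)` and `1 / J(q^p)`. -/
theorem exists_series :
    ∃ U g gp : LaurentSeries A,
      coeffMap A.subtype U = ((jFormal (p * m) ⟨p, dvd_mul_right p m⟩ * (jBar (p * m))⁻¹ ^ p :
        FN (p * m)) : LaurentSeries KQ) ∧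
      coeffMap π U = ((Jdk k (p * m) (dvd_mul_right p m) * (Jbar k (p * m))⁻¹ ^ p :
        ↥(modularFunctionFieldFullC k (p * m))) : LaurentSeries k) ∧
      coeffMap A.subtype g = (((jBar (p * m))⁻¹ : FN (p * m)) : LaurentSeries KQ) ∧
      coeffMap π g = (((Jbar k (p * m))⁻¹ : ↥(modularFunctionFieldFullC k (p * m))) :
        LaurentSeries k) ∧
      coeffMap A.subtype gp = (((jFormal (p * m) ⟨p, dvd_mul_right p m⟩)⁻¹ : FN (p * m)) :
        LaurentSeries KQ) ∧
      coeffMap π gp = (((Jdk k (p * m) (dvd_mul_right p m))⁻¹ :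
        ↥(modularFunctionFieldFullC k (p * m))) : LaurentSeries k) := by
  obtain ⟨U, g, -, hg, rfl⟩ := exists_U A p
  obtain ⟨gp, -, hgp⟩ := exists_Jinv A p
  have hgL : incl A g = (TD.Jd KQ 1)⁻¹ := by
    have h1 := congrArg (incl A) hg
    rw [map_mul, map_one, incl_Jd] at h1
    exact eq_inv_of_mul_eq_one_right h1
  have hgk : rbar A π g = (TD.Jd k 1)⁻¹ := by
    have h1 := congrArg (rbar A π) hg
    rw [map_mul, map_one, rbar_Jd] at h1
    exact eq_inv_of_mul_eq_one_right h1
  have hgpL : incl A gp = (TD.Jd KQ p)⁻¹ := by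
    have h1 := congrArg (incl A) hgp
    rw [map_mul, map_one, incl_Jd] at h1
    exact eq_inv_of_mul_eq_one_right h1
  have hgpk : rbar A π gp = (TD.Jd k p)⁻¹ := by
    have h1 := congrArg (rbar A π) hgp
    rw [map_mul, map_one, rbar_Jd] at h1
    exact eq_inv_of_mul_eq_one_right h1
  have cJ : ((jBar (p * m) : FN (p * m)) : LaurentSeries KQ) = TD.Jd KQ 1 := by
    rw [jBar, coe_jFormal9]
  have cJp : ((jFormal (p * m) ⟨p, dvd_mul_right p m⟩ : FN (p * m)) : LaurentSeries KQ) =
      TD.Jd KQ p := coe_jFormal9 _ _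
  have cJpb : ((Jdk k (p * m) (dvd_mul_right p m) : ↥(modularFunctionFieldFullC k (p * m))) :
      LaurentSeries k) = TD.Jd k p := rfl
  refine ⟨TD.Jd A p * g ^ p, g, gp, ?_, ?_, ?_, ?_, ?_, ?_⟩
  · show incl A (TD.Jd A p * g ^ p) = _
    rw [map_mul, map_pow, incl_Jd, hgL]
    push_cast
    rw [cJ, cJp]
  · show rbar A π (TD.Jd A p * g ^ p) = _
    rw [map_mul, map_pow, rbar_Jd, hgk]
    push_cast
    rw [coe_Jbar9, cJpb]
  · show incl A g = _
    rw [hgL, IntermediateField.coe_inv, cJ]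
  · show rbar A π g = _
    rw [hgk, IntermediateField.coe_inv, coe_Jbar9]
  · show incl A gp = _
    rw [hgpL, IntermediateField.coe_inv, cJp]
  · show rbar A π gp = _
    rw [hgpk, IntermediateField.coe_inv, cJpb]

variable [IsAlgClosed k]

/-- **Type `∞`**: if `a / b ^ p` is a unit then `ord J̄(q^p) = p * ord J̄(q)` at `r x`. -/
theorem cusp_unit (hp : p.Prime) (D : TD.ModEq p) (hπ : ∀ a : A, ¬ IsUnit a → π a = 0)
    (hsurj : Function.Surjective π) (hNk : ((p * m : ℕ) : k) ≠ 0)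
    {r : Place KQ (FN (p * m)) → Place k ↥(modularFunctionFieldFullC k (p * m))}
    (hr : IsPlaceReductionAlong A π (p * m) r) (x : Place KQ (FN (p * m))) (b a : KQ)
    (hb : b ∉ A)
    (hxb : 0 < x.ord (jBar (p * m) - algebraMap KQ (FN (p * m)) b))
    (hxa : 0 < x.ord (jFormal (p * m) ⟨p, dvd_mul_right p m⟩ - algebraMap KQ (FN (p * m)) a))
    (hQ : (r x).ord (Jbar k (p * m)) < 0)
    (hval : A.valuation (a / b ^ p) = 1) :
    (r x).ord (Jdk k (p * m) (dvd_mul_right p m)) = p * (r x).ord (Jbar k (p * m)) := by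
  have hb0 : b ≠ 0 := fun h => hb (h ▸ A.zero_mem)
  have hcA : a / b ^ p ∈ A := (A.valuation_le_one_iff _).mp hval.le
  have hcu : IsUnit (⟨a / b ^ p, hcA⟩ : A) := (A.valuation_eq_one_iff _).mpr hval
  have hπc : π ⟨a / b ^ p, hcA⟩ ≠ 0 := (hcu.map π).ne_zero
  obtain ⟨U, g, gp, hUL, hUk, -, -, -, -⟩ := exists_series A π p m
  haveI := finiteDimensional_jBar (p * m)
  have hJb := Jbar_ne_zero9 k (p * m)
  have hJpb : Jdk k (p * m) (dvd_mul_right p m) ≠ 0 :=
    Jdk_ne_zero9 k (p * m) (dvd_mul_right p m) (NeZero.ne p)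
  have hub : Jdk k (p * m) (dvd_mul_right p m) * (Jbar k (p * m))⁻¹ ^ p ≠ 0 :=
    mul_ne_zero hJpb (pow_ne_zero _ (inv_ne_zero hJb))
  have key : (r x).ord (Jdk k (p * m) (dvd_mul_right p m) * (Jbar k (p * m))⁻¹ ^ p) = 0 := by
    by_cases h0 : Jdk k (p * m) (dvd_mul_right p m) * (Jbar k (p * m))⁻¹ ^ p -
        algebraMap k ↥(modularFunctionFieldFullC k (p * m)) (π ⟨a / b ^ p, hcA⟩) = 0
    · rw [sub_eq_zero.mp h0]
      exact Fermat.Agent.S24.ord_algebraMap (r x) _
    · have hL : coeffMap A.subtype (U - HahnSeries.C (⟨a / b ^ p, hcA⟩ : A)) =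
          ((jFormal (p * m) ⟨p, dvd_mul_right p m⟩ * (jBar (p * m))⁻¹ ^ p -
            algebraMap KQ (FN (p * m)) (a / b ^ p) : FN (p * m)) : LaurentSeries KQ) := by
        rw [map_sub, hUL, AddSubgroupClass.coe_sub,
          Fermat.Agent.CAR.Ell.coe_algebraMap_laurentBaseChange]
        congr 1
        exact incl_C A _
      have hk : coeffMap π (U - HahnSeries.C (⟨a / b ^ p, hcA⟩ : A)) =
          ((Jdk k (p * m) (dvd_mul_right p m) * (Jbar k (p * m))⁻¹ ^ p -
            algebraMap k ↥(modularFunctionFieldFullC k (p * m)) (π ⟨a / b ^ p, hcA⟩) :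
            ↥(modularFunctionFieldFullC k (p * m))) : LaurentSeries k) := by
        rw [map_sub, hUk, AddSubgroupClass.coe_sub, Fermat.Agent.CAR.Ell.coe_algebraMap_fullC]
        congr 1
        exact rbar_C A π _
      have hfne : jFormal (p * m) ⟨p, dvd_mul_right p m⟩ * (jBar (p * m))⁻¹ ^ p -
          algebraMap KQ (FN (p * m)) (a / b ^ p) ≠ 0 := by
        intro hf
        apply h0
        apply Subtype.ext
        rw [← hk]
        have hy : U - HahnSeries.C (⟨a / b ^ p, hcA⟩ : A) = 0 := by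
          apply incl_injective A
          show coeffMap A.subtype _ = coeffMap A.subtype 0
          rw [hL, hf, map_zero]
          rfl
        rw [hy, map_zero]
        rfl
      have hpos := ord_red_pos_of_fibre (jBar (p * m)) hr _ _ _ hL hk h0 (r x)
        (fun P hPQ => ord_nonneg_of_mem P (sub_mem (mem_of_ord_nonneg P
          (fibre_local p m hp D hπ hsurj hNk hr P (by rw [hPQ]; exact hQ)).1)
          (P.algebraMap_mem' _)))
        x rfl (ord_quot_sub_pos x p hb0 hxb hxa hfne)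
      exact ord_eq_zero_of_sub_pos (r x) hπc hpos
  have e : Jdk k (p * m) (dvd_mul_right p m) =
      (Jdk k (p * m) (dvd_mul_right p m) * (Jbar k (p * m))⁻¹ ^ p) * Jbar k (p * m) ^ p := by
    rw [inv_pow, mul_assoc, inv_mul_cancel₀ (pow_ne_zero _ hJb), mul_one]
  calc (r x).ord (Jdk k (p * m) (dvd_mul_right p m))
      = (r x).ord ((Jdk k (p * m) (dvd_mul_right p m) * (Jbar k (p * m))⁻¹ ^ p) *
          Jbar k (p * m) ^ p) := by rw [← e]
    _ = p * (r x).ord (Jbar k (p * m)) := by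
        rw [(r x).ord_mul hub (pow_ne_zero _ hJb), key, zero_add, ← zpow_natCast,
          (r x).ord_zpow]

/-- **Type `0`**: if `a / b ^ p` lies in the maximal ideal then `ord J̄(q) = p * ord J̄(q^p)` at
`r x`. -/
theorem cusp_zero (hp : p.Prime) (D : TD.ModEq p) (hπ : ∀ a : A, ¬ IsUnit a → π a = 0)
    (hsurj : Function.Surjective π) (hNk : ((p * m : ℕ) : k) ≠ 0)
    {r : Place KQ (FN (p * m)) → Place k ↥(modularFunctionFieldFullC k (p * m))}
    (hr : IsPlaceReductionAlong A π (p * m) r) (x : Place KQ (FN (p * m))) (b a : KQ)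
    (hb : b ∉ A)
    (hxb : 0 < x.ord (jBar (p * m) - algebraMap KQ (FN (p * m)) b))
    (hxa : 0 < x.ord (jFormal (p * m) ⟨p, dvd_mul_right p m⟩ - algebraMap KQ (FN (p * m)) a))
    (hQ : (r x).ord (Jbar k (p * m)) < 0)
    (hval : A.valuation (a / b ^ p) < 1) :
    (r x).ord (Jbar k (p * m)) = p * (r x).ord (Jdk k (p * m) (dvd_mul_right p m)) := by
  have hb0 : b ≠ 0 := fun h => hb (h ▸ A.zero_mem)
  have hcA : a / b ^ p ∈ A := (A.valuation_le_one_iff _).mp hval.le
  have hcnu : ¬ IsUnit (⟨a / b ^ p, hcA⟩ : A) := by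
    intro hu
    have h1 : A.valuation (a / b ^ p) = 1 := (A.valuation_eq_one_iff ⟨a / b ^ p, hcA⟩).mp hu
    exact absurd h1 hval.ne
  have hπc : π ⟨a / b ^ p, hcA⟩ = 0 := hπ _ hcnu
  obtain ⟨U, g, gp, hUL, hUk, hgL, hgk, hgpL, hgpk⟩ := exists_series A π p m
  haveI := finiteDimensional_jBar (p * m)
  have hJb := Jbar_ne_zero9 k (p * m)
  have hJpb : Jdk k (p * m) (dvd_mul_right p m) ≠ 0 :=
    Jdk_ne_zero9 k (p * m) (dvd_mul_right p m) (NeZero.ne p)
  have hub : Jdk k (p * m) (dvd_mul_right p m) * (Jbar k (p * m))⁻¹ ^ p ≠ 0 :=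
    mul_ne_zero hJpb (pow_ne_zero _ (inv_ne_zero hJb))
  have hfib := fun (P : Place KQ (FN (p * m))) (hPQ : r P = r x) =>
    fibre_local p m hp D hπ hsurj hNk hr P (by rw [hPQ]; exact hQ)
  -- step 1: `ū` vanishes at `r x`
  have hL3 : coeffMap A.subtype (U - HahnSeries.C (⟨a / b ^ p, hcA⟩ : A)) =
      ((jFormal (p * m) ⟨p, dvd_mul_right p m⟩ * (jBar (p * m))⁻¹ ^ p -
        algebraMap KQ (FN (p * m)) (a / b ^ p) : FN (p * m)) : LaurentSeries KQ) := by
    rw [map_sub, hUL, AddSubgroupClass.coe_sub,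
      Fermat.Agent.CAR.Ell.coe_algebraMap_laurentBaseChange]
    congr 1
    exact incl_C A _
  have hk3 : coeffMap π (U - HahnSeries.C (⟨a / b ^ p, hcA⟩ : A)) =
      ((Jdk k (p * m) (dvd_mul_right p m) * (Jbar k (p * m))⁻¹ ^ p :
        ↥(modularFunctionFieldFullC k (p * m))) : LaurentSeries k) := by
    have hC : coeffMap π (HahnSeries.C (⟨a / b ^ p, hcA⟩ : A)) = 0 := by
      have h1 := rbar_C A π (⟨a / b ^ p, hcA⟩ : A)
      rw [hπc, map_zero] at h1
      exact h1
    rw [map_sub, hUk, hC, sub_zero]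
  have hfne3 : jFormal (p * m) ⟨p, dvd_mul_right p m⟩ * (jBar (p * m))⁻¹ ^ p -
      algebraMap KQ (FN (p * m)) (a / b ^ p) ≠ 0 := by
    intro hf
    apply hub
    apply Subtype.ext
    rw [← hk3]
    have hy : U - HahnSeries.C (⟨a / b ^ p, hcA⟩ : A) = 0 := by
      apply incl_injective A
      show coeffMap A.subtype _ = coeffMap A.subtype 0
      rw [hL3, hf, map_zero]
      rfl
    rw [hy, map_zero]
    rfl
  have h3 : 0 < (r x).ord (Jdk k (p * m) (dvd_mul_right p m) * (Jbar k (p * m))⁻¹ ^ p) :=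
    ord_red_pos_of_fibre (jBar (p * m)) hr _ _ _ hL3 hk3 hub (r x)
      (fun P hPQ => ord_nonneg_of_mem P (sub_mem (mem_of_ord_nonneg P (hfib P hPQ).1)
        (P.algebraMap_mem' _)))
      x rfl (ord_quot_sub_pos x p hb0 hxb hxa hfne3)
  -- step 2: no cusp of type `∞` in the fibre
  have hT : ∀ P : Place KQ (FN (p * m)), r P = r x →
      P.ord (jBar (p * m))⁻¹ = p * P.ord (jFormal (p * m) ⟨p, dvd_mul_right p m⟩)⁻¹ := by
    intro P hPQ
    rcases (hfib P hPQ).2 with ⟨-, h2⟩ | h
    · exfalso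
      have hL1 : coeffMap A.subtype (U - 1) =
          ((jFormal (p * m) ⟨p, dvd_mul_right p m⟩ * (jBar (p * m))⁻¹ ^ p - 1 : FN (p * m)) :
            LaurentSeries KQ) := by
        rw [map_sub, map_one, hUL, AddSubgroupClass.coe_sub]
        rfl
      have hk1 : coeffMap π (U - 1) =
          ((Jdk k (p * m) (dvd_mul_right p m) * (Jbar k (p * m))⁻¹ ^ p - 1 :
            ↥(modularFunctionFieldFullC k (p * m))) : LaurentSeries k) := by
        rw [map_sub, map_one, hUk, AddSubgroupClass.coe_sub]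
        rfl
      by_cases h10 : Jdk k (p * m) (dvd_mul_right p m) * (Jbar k (p * m))⁻¹ ^ p - 1 = 0
      · rw [sub_eq_zero.mp h10, Place.ord_one] at h3
        exact lt_irrefl _ h3
      · have hf1 : jFormal (p * m) ⟨p, dvd_mul_right p m⟩ * (jBar (p * m))⁻¹ ^ p - 1 ≠ 0 := by
          intro hf
          apply h10
          apply Subtype.ext
          rw [← hk1]
          have hy : U - 1 = 0 := by
            apply incl_injective A
            show coeffMap A.subtype _ = coeffMap A.subtype 0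
            rw [hL1, hf, map_zero]
            rfl
          rw [hy, map_zero]
          rfl
        have hpos1 := ord_red_pos_of_fibre (jBar (p * m)) hr _ _ _ hL1 hk1 h10 (r x)
          (fun P' hP'Q => ord_nonneg_of_mem P' (sub_mem (mem_of_ord_nonneg P' (hfib P' hP'Q).1)
            (one_mem _)))
          P hPQ (h2 hf1)
        have h5 := ord_sub_ge (r x) hub h10 (by rw [sub_sub_cancel]; exact one_ne_zero)
        rw [sub_sub_cancel, Place.ord_one] at h5
        have h6 := lt_min h3 hpos1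
        omega
    · exact h
  -- step 3: push forward `1 / J(q)` and `1 / J(q^p)`
  have hfin := ord_red_eq_mul_of_fibre (jBar (p * m)) hr g gp _ _ _ _ hgL hgk (inv_ne_zero hJb)
    hgpL hgpk (inv_ne_zero hJpb) (r x) p hT
  rw [Place.ord_inv, Place.ord_inv] at hfin
  linarith

end

end Fermat.Agent.S15P.M3.Cusp9
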