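/-
S15 (RC), helper9: the CUSP halves of the reduction core, and the packaged statements in the
vocabulary of `S15P/M6/Defs.lean` (`NonInt`, `TypeInf`, `TypeZero`, `jbar`).

`A` a valuation subring of `ℚ̄` over `ℓ`, level `M` with `ℓ ∤ M`, `p ∣ M` prime,
`h : ReductionInputsModL A M`, `r = placeReductionModL h`:

* `red_pole_of_nonInt` : a non-integral place (pole of `j`, or point with `j ∉ A`) reduces to a
  pole of `j̄`;
* `red_exists_cusp` : every pole of `j̄` is the reduction of a pole of `j`;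
* `red_typeZero` : a place of type `0` reduces to a pole of `j̄` with `ord j̄ = p * ord j̄_p`;
* `red_typeZero_dvd` : … hence `p ∣ ord j̄` there;
* `red_typeInf` : a place of type `∞` reduces to a pole of `j̄` with `ord j̄_p = p * ord j̄`.
-/
import Mathlib
import Fermat.Agent.S28.ModEqX.Main
import Fermat.Agent.S28.Char0Bridge
import Fermat.Agent.Lib.FF.CharP.ModLInst
import Fermat.Agent.S15P.M3.Cusp9
import Fermat.Agent.S15P.M6.Defs
import Fermat.Prelude.Def_ModularCurve_ReductionModL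

set_option autoImplicit false
set_option synthInstance.maxHeartbeats 400000
set_option linter.unusedSectionVars false
set_option linter.style.haveILetI false

namespace Fermat.Agent.S15P.M3.Cusp9

open ModularCurve AlgebraicCurve Fermat.Agent.S24 Fermat.Agent.S28 Fermat.Agent.Lib.Red
open Fermat.Agent.S28.ModEq Fermat.Agent.CAR.Ell.FrickeRed Fermat.Agent.Lib.FF.ModL
open scoped IntermediateField

noncomputable section

/-! ### Any level: poles of `j` and poles of `j̄` -/

section anyLevel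

variable {A : ValuationSubring KQ} {k : Type} [Field k] {π : A →+* k} {N : ℕ} [NeZero N]
variable [IsAlgClosed k]

/-- The series of `1 / J(q)`: char `0` side. -/
theorem exists_ginv (A : ValuationSubring KQ) {k : Type} [Field k] (π : A →+* k) (N : ℕ)
    [NeZero N] :
    ∃ g : LaurentSeries A,
      coeffMap A.subtype g = (((jBar N)⁻¹ : FN N) : LaurentSeries KQ) ∧
      coeffMap π g = (((Jbar k N)⁻¹ : ↥(modularFunctionFieldFullC k N)) : LaurentSeries k) := by
  obtain ⟨g, -, hg⟩ := exists_Jinv A 1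
  refine ⟨g, ?_, ?_⟩
  · show incl A g = _
    have h1 := congrArg (incl A) hg
    rw [map_mul, map_one, incl_Jd] at h1
    rw [eq_inv_of_mul_eq_one_right h1, IntermediateField.coe_inv, jBar, coe_jFormal9]
  · show rbar A π g = _
    have h1 := congrArg (rbar A π) hg
    rw [map_mul, map_one, rbar_Jd] at h1
    rw [eq_inv_of_mul_eq_one_right h1, IntermediateField.coe_inv, coe_Jbar9]

/-- **A pole of `j` reduces to a pole of `j̄`.** -/
theorem red_neg_of_pole (hπ : ∀ a : A, ¬ IsUnit a → π a = 0) (hsurj : Function.Surjective π)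
    (hNk : (N : k) ≠ 0)
    {r : Place KQ (FN N) → Place k ↥(modularFunctionFieldFullC k N)}
    (hr : IsPlaceReductionAlong A π N r) (P : Place KQ (FN N))
    (hP : P.ord (jBar N) < 0) : (r P).ord (Jbar k N) < 0 := by
  obtain ⟨g, hgL, hgk⟩ := exists_ginv A π N
  haveI := finiteDimensional_jBar N
  haveI := finiteDimensional_Jbar k N
  have hadjL : KQ⟮(jBar N)⁻¹⟯ = KQ⟮jBar N⟯ := adjoin_inv_eq (jBar N)
  have hadjk : k⟮(Jbar k N)⁻¹⟯ = k⟮Jbar k N⟯ := adjoin_inv_eq (Jbar k N)
  haveI : FiniteDimensional KQ⟮(jBar N)⁻¹⟯ (FN N) := finiteDimensional_adjoin_congr hadjL.symm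
  haveI : FiniteDimensional k⟮(Jbar k N)⁻¹⟯ ↥(modularFunctionFieldFullC k N) :=
    finiteDimensional_adjoin_congr hadjk.symm
  have hpos : 0 < P.ord (jBar N)⁻¹ := by rw [Place.ord_inv]; omega
  have h := ord_red_pos_of_pos hr g (jBar N)⁻¹ (Jbar k N)⁻¹ hgL hgk
    (transcendental_inv (transcendental_jBar N)) (transcendental_inv (transcendental_Jbar k N))
    (by rw [finrank_adjoin_congr hadjL, finrank_adjoin_congr hadjk]
        exact finrank_jBar_eq_Jbar hπ hsurj hNk) P hpos
  rw [Place.ord_inv] at h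
  omega

/-- **Every pole of `j̄` is the reduction of a pole of `j`.** -/
theorem exists_pole_of_red_neg
    {r : Place KQ (FN N) → Place k ↥(modularFunctionFieldFullC k N)}
    (hr : IsPlaceReductionAlong A π N r) (Q : Place k ↥(modularFunctionFieldFullC k N))
    (hQ : Q.ord (Jbar k N) < 0) : ∃ c : Place KQ (FN N), c.ord (jBar N) < 0 ∧ r c = Q := by
  obtain ⟨g, hgL, hgk⟩ := exists_ginv A π N
  haveI := finiteDimensional_jBar N
  have hJb := Jbar_ne_zero9 k N
  have hpush := ord_red_eq_mapDomain (jBar N) hr g (jBar N)⁻¹ (Jbar k N)⁻¹ hgL hgk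
    (inv_ne_zero hJb) Q
  by_contra hcon
  have hall : ∀ c : Place KQ (FN N), r c = Q → 0 ≤ c.ord (jBar N) := by
    intro c hc
    by_contra hneg
    exact hcon ⟨c, not_le.mp hneg, hc⟩
  have h1 := mapDomain_nonneg r (-(divOf (jBar N) (jBar N)⁻¹)) Q (fun c hc => by
    rw [Finsupp.neg_apply, divOf_apply, Place.ord_inv, neg_neg]
    exact hall c hc)
  have h2 := mapDomain_eq_mul r (-(divOf (jBar N) (jBar N)⁻¹)) (divOf (jBar N) (jBar N)⁻¹) Q (-1)
    (fun c _ => by rw [Finsupp.neg_apply]; ring)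
  rw [Place.ord_inv] at hpush
  omega

end anyLevel

/-! ### Level `p m`: the type of a cusp is preserved -/

section levelPM

variable {A : ValuationSubring KQ} {k : Type} [Field k] {π : A →+* k}
variable (p m : ℕ) [NeZero p] [NeZero m]
variable [IsAlgClosed k]

/-- **Type `∞`**, general form: if `u - 1` vanishes at `x` (`u = J(q^p) / J(q)^p`), then
`ord J̄(q^p) = p * ord J̄(q)` at `r x`. -/
theorem unit_of_sub_one_pos (hp : p.Prime) (D : TD.ModEq p)
    (hπ : ∀ a : A, ¬ IsUnit a → π a = 0)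
    (hsurj : Function.Surjective π) (hNk : ((p * m : ℕ) : k) ≠ 0)
    {r : Place KQ (FN (p * m)) → Place k ↥(modularFunctionFieldFullC k (p * m))}
    (hr : IsPlaceReductionAlong A π (p * m) r) (x : Place KQ (FN (p * m)))
    (hQ : (r x).ord (Jbar k (p * m)) < 0)
    (hu : jFormal (p * m) ⟨p, dvd_mul_right p m⟩ * (jBar (p * m))⁻¹ ^ p - 1 ≠ 0 →
      0 < x.ord (jFormal (p * m) ⟨p, dvd_mul_right p m⟩ * (jBar (p * m))⁻¹ ^ p - 1)) :
    (r x).ord (Jdk k (p * m) (dvd_mul_right p m)) = p * (r x).ord (Jbar k (p * m)) := by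
  obtain ⟨U, g, gp, hUL, hUk, -, -, -, -⟩ := exists_series A π p m
  haveI := finiteDimensional_jBar (p * m)
  have hJb := Jbar_ne_zero9 k (p * m)
  have hJpb : Jdk k (p * m) (dvd_mul_right p m) ≠ 0 :=
    Jdk_ne_zero9 k (p * m) (dvd_mul_right p m) (NeZero.ne p)
  have hub : Jdk k (p * m) (dvd_mul_right p m) * (Jbar k (p * m))⁻¹ ^ p ≠ 0 :=
    mul_ne_zero hJpb (pow_ne_zero _ (inv_ne_zero hJb))
  have key : (r x).ord (Jdk k (p * m) (dvd_mul_right p m) * (Jbar k (p * m))⁻¹ ^ p) = 0 := by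
    by_cases h10 : Jdk k (p * m) (dvd_mul_right p m) * (Jbar k (p * m))⁻¹ ^ p - 1 = 0
    · rw [sub_eq_zero.mp h10, Place.ord_one]
    · have hL1 : coeffMap A.subtype (U - 1) =
          ((jFormal (p * m) ⟨p, dvd_mul_right p m⟩ * (jBar (p * m))⁻¹ ^ p - 1 : FN (p * m)) :
            LaurentSeries KQ) := by
        rw [map_sub, map_one, hUL, AddSubgroupClass.coe_sub]
        rfl
      have hk1 : coeffMap π (U - 1) =
          ((Jdk k (p * m) (dvd_mul_right p m) * (Jbar k (p * m))⁻¹ ^ p - 1 :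
            ↥(modularFunctionFieldFullC k (p * m))) : LaurentSeries k) := by
        rw [map_sub, map_one, hUk, AddSubgroupClass.coe_sub]
        rfl
      have hf1 : jFormal (p * m) ⟨p, dvd_mul_right p m⟩ * (jBar (p * m))⁻¹ ^ p - 1 ≠ 0 := by
        intro hf
        apply h10
        apply Subtype.ext
        rw [← hk1]
        have hy : U - 1 = 0 := by
          apply incl_injective A
          show coeffMap A.subtype _ = coeffMap A.subtype 0
          rw [hL1, hf, map_zero]
          rfl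
        rw [hy, map_zero]
        rfl
      have hpos1 := ord_red_pos_of_fibre (jBar (p * m)) hr _ _ _ hL1 hk1 h10 (r x)
        (fun P hPQ => ord_nonneg_of_mem P (sub_mem (mem_of_ord_nonneg P
          (fibre_local p m hp D hπ hsurj hNk hr P (by rw [hPQ]; exact hQ)).1) (one_mem _)))
        x rfl (hu hf1)
      exact ord_eq_zero_of_sub_pos (r x) (b := (1 : k)) one_ne_zero (by rw [map_one]; exact hpos1)
  have e : Jdk k (p * m) (dvd_mul_right p m) =
      (Jdk k (p * m) (dvd_mul_right p m) * (Jbar k (p * m))⁻¹ ^ p) * Jbar k (p * m) ^ p := by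
    rw [inv_pow, mul_assoc, inv_mul_cancel₀ (pow_ne_zero _ hJb), mul_one]
  calc (r x).ord (Jdk k (p * m) (dvd_mul_right p m))
      = (r x).ord ((Jdk k (p * m) (dvd_mul_right p m) * (Jbar k (p * m))⁻¹ ^ p) *
          Jbar k (p * m) ^ p) := by rw [← e]
    _ = p * (r x).ord (Jbar k (p * m)) := by
        rw [(r x).ord_mul hub (pow_ne_zero _ hJb), key, zero_add, ← zpow_natCast,
          (r x).ord_zpow]

/-- **Type `0`**, general form: if `u` vanishes at `x` (`u = J(q^p) / J(q)^p`), then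
`ord J̄(q) = p * ord J̄(q^p)` at `r x`. -/
theorem zero_of_pos (hp : p.Prime) (D : TD.ModEq p)
    (hπ : ∀ a : A, ¬ IsUnit a → π a = 0)
    (hsurj : Function.Surjective π) (hNk : ((p * m : ℕ) : k) ≠ 0)
    {r : Place KQ (FN (p * m)) → Place k ↥(modularFunctionFieldFullC k (p * m))}
    (hr : IsPlaceReductionAlong A π (p * m) r) (x : Place KQ (FN (p * m)))
    (hQ : (r x).ord (Jbar k (p * m)) < 0)
    (hu : 0 < x.ord (jFormal (p * m) ⟨p, dvd_mul_right p m⟩ * (jBar (p * m))⁻¹ ^ p)) :
    (r x).ord (Jbar k (p * m)) = p * (r x).ord (Jdk k (p * m) (dvd_mul_right p m)) := by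
  obtain ⟨U, g, gp, hUL, hUk, hgL, hgk, hgpL, hgpk⟩ := exists_series A π p m
  haveI := finiteDimensional_jBar (p * m)
  have hJb := Jbar_ne_zero9 k (p * m)
  have hJpb : Jdk k (p * m) (dvd_mul_right p m) ≠ 0 :=
    Jdk_ne_zero9 k (p * m) (dvd_mul_right p m) (NeZero.ne p)
  have hub : Jdk k (p * m) (dvd_mul_right p m) * (Jbar k (p * m))⁻¹ ^ p ≠ 0 :=
    mul_ne_zero hJpb (pow_ne_zero _ (inv_ne_zero hJb))
  have hfib := fun (P : Place KQ (FN (p * m))) (hPQ : r P = r x) =>
    fibre_local p m hp D hπ hsurj hNk hr P (by rw [hPQ]; exact hQ)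
  -- step 1: `ū` vanishes at `r x`
  have h3 : 0 < (r x).ord (Jdk k (p * m) (dvd_mul_right p m) * (Jbar k (p * m))⁻¹ ^ p) :=
    ord_red_pos_of_fibre (jBar (p * m)) hr _ _ _ hUL hUk hub (r x)
      (fun P hPQ => (hfib P hPQ).1) x rfl hu
  -- step 2: no cusp of type `∞` in the fibre
  have hT : ∀ P : Place KQ (FN (p * m)), r P = r x →
      P.ord (jBar (p * m))⁻¹ = p * P.ord (jFormal (p * m) ⟨p, dvd_mul_right p m⟩)⁻¹ := by
    intro P hPQ
    rcases (hfib P hPQ).2 with ⟨-, h2⟩ | h
    · exfalso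
      have hL1 : coeffMap A.subtype (U - 1) =
          ((jFormal (p * m) ⟨p, dvd_mul_right p m⟩ * (jBar (p * m))⁻¹ ^ p - 1 : FN (p * m)) :
            LaurentSeries KQ) := by
        rw [map_sub, map_one, hUL, AddSubgroupClass.coe_sub]
        rfl
      have hk1 : coeffMap π (U - 1) =
          ((Jdk k (p * m) (dvd_mul_right p m) * (Jbar k (p * m))⁻¹ ^ p - 1 :
            ↥(modularFunctionFieldFullC k (p * m))) : LaurentSeries k) := by
        rw [map_sub, map_one, hUk, AddSubgroupClass.coe_sub]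
        rfl
      by_cases h10 : Jdk k (p * m) (dvd_mul_right p m) * (Jbar k (p * m))⁻¹ ^ p - 1 = 0
      · rw [sub_eq_zero.mp h10, Place.ord_one] at h3
        exact lt_irrefl _ h3
      · have hf1 : jFormal (p * m) ⟨p, dvd_mul_right p m⟩ * (jBar (p * m))⁻¹ ^ p - 1 ≠ 0 := by
          intro hf
          apply h10
          apply Subtype.ext
          rw [← hk1]
          have hy : U - 1 = 0 := by
            apply incl_injective A
            show coeffMap A.subtype _ = coeffMap A.subtype 0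
            rw [hL1, hf, map_zero]
            rfl
          rw [hy, map_zero]
          rfl
        have hpos1 := ord_red_pos_of_fibre (jBar (p * m)) hr _ _ _ hL1 hk1 h10 (r x)
          (fun P' hP'Q => ord_nonneg_of_mem P' (sub_mem (mem_of_ord_nonneg P' (hfib P' hP'Q).1)
            (one_mem _)))
          P hPQ (h2 hf1)
        have h5 := ord_sub_ge (r x) hub h10 (by rw [sub_sub_cancel]; exact one_ne_zero)
        rw [sub_sub_cancel, Place.ord_one] at h5
        have h6 := lt_min h3 hpos1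
        omega
    · exact h
  -- step 3: push forward `1 / J(q)` and `1 / J(q^p)`
  have hfin := ord_red_eq_mul_of_fibre (jBar (p * m)) hr g gp _ _ _ _ hgL hgk (inv_ne_zero hJb)
    hgpL hgpk (inv_ne_zero hJpb) (r x) p hT
  rw [Place.ord_inv, Place.ord_inv] at hfin
  linarith

/-- A cusp of type `∞` (char `0`): `u - 1` vanishes there. -/
theorem sub_one_pos_of_typeInf (hp : p.Prime) (P : Place KQ (FN (p * m)))
    (hP : P.ord (jBar (p * m)) < 0)
    (hT : P.ord (jFormal (p * m) ⟨p, dvd_mul_right p m⟩) = p * P.ord (jBar (p * m)))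
    (hne : jFormal (p * m) ⟨p, dvd_mul_right p m⟩ * (jBar (p * m))⁻¹ ^ p - 1 ≠ 0) :
    0 < P.ord (jFormal (p * m) ⟨p, dvd_mul_right p m⟩ * (jBar (p * m))⁻¹ ^ p - 1) := by
  rcases cusp_types p m hp P hP with ⟨-, h2⟩ | h1
  · exact h2 hne
  · exfalso
    have h1' : P.ord (jBar (p * m)) = p * P.ord (jFormal (p * m) ⟨p, dvd_mul_right p m⟩) := h1
    have hp1 : (2 : ℤ) ≤ p := by exact_mod_cast hp.two_le
    rw [hT] at h1'
    have ht1 : (p : ℤ) * P.ord (jBar (p * m)) ≤ 2 * P.ord (jBar (p * m)) :=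
      mul_le_mul_of_nonpos_right hp1 hP.le
    have ht2 : (p : ℤ) * ((p : ℤ) * P.ord (jBar (p * m))) ≤
        2 * ((p : ℤ) * P.ord (jBar (p * m))) :=
      mul_le_mul_of_nonpos_right hp1 (by linarith)
    linarith

/-- A cusp of type `0` (char `0`): `u` vanishes there. -/
theorem pos_of_typeZero (hp : p.Prime) (P : Place KQ (FN (p * m)))
    (hP : P.ord (jBar (p * m)) < 0)
    (hT : P.ord (jBar (p * m)) = p * P.ord (jFormal (p * m) ⟨p, dvd_mul_right p m⟩)) :
    0 < P.ord (jFormal (p * m) ⟨p, dvd_mul_right p m⟩ * (jBar (p * m))⁻¹ ^ p) := by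
  have hJne := jBar_ne_zero9 (p * m)
  have hJpne := jFormal_ne_zero9 (p * m) ⟨p, dvd_mul_right p m⟩
  rw [P.ord_mul hJpne (pow_ne_zero _ (inv_ne_zero hJne)), ← zpow_natCast, P.ord_zpow,
    P.ord_inv]
  have hp1 : (2 : ℤ) ≤ p := by exact_mod_cast hp.two_le
  have hJp : P.ord (jFormal (p * m) ⟨p, dvd_mul_right p m⟩) < 0 := by
    rw [hT] at hP
    by_contra hcon
    rw [not_lt] at hcon
    have := mul_nonneg (le_trans zero_le_two hp1) hcon
    omega
  rw [hT]
  nlinarith

end levelPM

/-! ### The statements in the vocabulary of `M6/Defs` -/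

section final

open Fermat.Agent.S15P.M6

variable {M ℓ : ℕ} [NeZero M] (hℓ : ℓ.Prime) (hℓM : ¬ ℓ ∣ M)
  (A : ValuationSubring (AlgebraicClosure ℚ)) (hA : A.LiesOverPrime ℓ)
  (h : ReductionInputsModL A M)

include hℓ hℓM hA in
/-- (RC1, `⇐`) a non-integral place reduces to a pole of `j̄`. -/
theorem red_pole_of_nonInt (P : Place (AlgebraicClosure ℚ) (FN M)) (hP : NonInt A P) :
    (placeReductionModL h P).ord (jbar _ M 1 (one_dvd M)) < 0 := by
  haveI : IsAlgClosed (IsLocalRing.ResidueField A) :=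
    Fermat.Agent.Lib.FF.CharP.isAlgClosed_residueField A
  have hNk : ((M : ℕ) : IsLocalRing.ResidueField A) ≠ 0 :=
    Fermat.Agent.ESJ.natCast_residue_ne_zero' A hℓ hA M hℓM
  have hπ := Fermat.Agent.ESJ.residue_eq_zero_of_not_isUnit' A
  have hsurj : Function.Surjective (IsLocalRing.residue A) := IsLocalRing.residue_surjective
  have hr : IsPlaceReductionAlong A (IsLocalRing.residue A) M (placeReductionModL h) :=
    isPlaceReductionModL_placeReductionModL h
  have eJb : jbar (IsLocalRing.ResidueField A) M 1 (one_dvd M) =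
      Jbar (IsLocalRing.ResidueField A) M := Subtype.ext (qExpand_one_apply _)
  rw [eJb]
  rcases hP with hP | ⟨b, hb, hxb⟩
  · exact red_neg_of_pole hπ hsurj hNk hr P hP
  · exact red_neg_of_nonint hπ hsurj hNk hr P b hb hxb

include hℓ hℓM hA in
/-- (RC2) every pole of `j̄` is the reduction of a cusp. -/
theorem red_exists_cusp
    (Q : Place (IsLocalRing.ResidueField A) (modularFunctionFieldFullC _ M))
    (hQ : Q.ord (jbar _ M 1 (one_dvd M)) < 0) :
    ∃ c : Place (AlgebraicClosure ℚ) (FN M),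
      c.ord (jFormal M ⟨1, one_dvd M⟩) < 0 ∧ placeReductionModL h c = Q := by
  haveI : IsAlgClosed (IsLocalRing.ResidueField A) :=
    Fermat.Agent.Lib.FF.CharP.isAlgClosed_residueField A
  have hr : IsPlaceReductionAlong A (IsLocalRing.residue A) M (placeReductionModL h) :=
    isPlaceReductionModL_placeReductionModL h
  have eJb : jbar (IsLocalRing.ResidueField A) M 1 (one_dvd M) =
      Jbar (IsLocalRing.ResidueField A) M := Subtype.ext (qExpand_one_apply _)
  rw [eJb] at hQ
  exact exists_pole_of_red_neg hr Q hQ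

variable {p : ℕ} [NeZero p] (hp : p.Prime) (hpM : p ∣ M)

include hℓ hℓM hA hp in
/-- (RC1 `⇐` + RC5) a place of type `0` reduces to a pole of `j̄` with
`ord j̄ = p * ord j̄_p`. -/
theorem red_typeZero (P : Place (AlgebraicClosure ℚ) (FN M)) (hP : TypeZero A hpM P) :
    (placeReductionModL h P).ord (jbar _ M 1 (one_dvd M)) < 0 ∧
    (placeReductionModL h P).ord (jbar _ M 1 (one_dvd M)) =
      p * (placeReductionModL h P).ord (jbar _ M p hpM) := by
  have hQ0 := red_pole_of_nonInt hℓ hℓM A hA h P (typeZero_nonInt hP)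
  refine ⟨hQ0, ?_⟩
  obtain ⟨m, rfl⟩ := hpM
  haveI : NeZero m := ⟨fun hm => NeZero.ne (p * m) (by rw [hm, mul_zero])⟩
  haveI : IsAlgClosed (IsLocalRing.ResidueField A) :=
    Fermat.Agent.Lib.FF.CharP.isAlgClosed_residueField A
  have hNk : ((p * m : ℕ) : IsLocalRing.ResidueField A) ≠ 0 :=
    Fermat.Agent.ESJ.natCast_residue_ne_zero' A hℓ hA (p * m) hℓM
  have hπ := Fermat.Agent.ESJ.residue_eq_zero_of_not_isUnit' A
  have hsurj : Function.Surjective (IsLocalRing.residue A) := IsLocalRing.residue_surjective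
  have hr : IsPlaceReductionAlong A (IsLocalRing.residue A) (p * m) (placeReductionModL h) :=
    isPlaceReductionModL_placeReductionModL h
  obtain ⟨D0⟩ := Fermat.Agent.S28.ModEqX.exists_modEqData p hp
  have eJb : jbar (IsLocalRing.ResidueField A) (p * m) 1 (one_dvd (p * m)) =
      Jbar (IsLocalRing.ResidueField A) (p * m) := Subtype.ext (qExpand_one_apply _)
  have eJpb : jbar (IsLocalRing.ResidueField A) (p * m) p (Dvd.intro m rfl) =
      Jdk (IsLocalRing.ResidueField A) (p * m) (dvd_mul_right p m) :=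
    Subtype.ext (TD.Jd_eq (IsLocalRing.ResidueField A) p).symm
  rw [eJb] at hQ0
  rw [eJb, eJpb]
  rcases hP with ⟨hP1, hP2⟩ | ⟨b, a, hb, hxb, hxa, hval⟩
  · exact zero_of_pos p m hp (Char0Bridge.modEqDataToTD D0) hπ hsurj hNk hr P hQ0
      (pos_of_typeZero p m hp P hP1 hP2)
  · exact cusp_zero p m hp (Char0Bridge.modEqDataToTD D0) hπ hsurj hNk hr P b a hb hxb hxa hQ0
      hval

include hℓ hℓM hA hp in
/-- (RC1 `⇐` + RC5, divisibility form) a place of type `0` reduces to a pole of `j̄` of order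
divisible by `p`. -/
theorem red_typeZero_dvd (P : Place (AlgebraicClosure ℚ) (FN M)) (hP : TypeZero A hpM P) :
    (placeReductionModL h P).ord (jbar _ M 1 (one_dvd M)) < 0 ∧
    (p : ℤ) ∣ (placeReductionModL h P).ord (jbar _ M 1 (one_dvd M)) := by
  obtain ⟨h1, h2⟩ := red_typeZero hℓ hℓM A hA h hp hpM P hP
  exact ⟨h1, ⟨_, h2⟩⟩

include hℓ hℓM hA hp in
/-- (RC1 `⇐` + RC4) a place of type `∞` reduces to a pole of `j̄` with
`ord j̄_p = p * ord j̄`. -/
theorem red_typeInf (P : Place (AlgebraicClosure ℚ) (FN M)) (hP : TypeInf A hpM P) :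
    (placeReductionModL h P).ord (jbar _ M 1 (one_dvd M)) < 0 ∧
    (placeReductionModL h P).ord (jbar _ M p hpM) =
      p * (placeReductionModL h P).ord (jbar _ M 1 (one_dvd M)) := by
  have hQ0 := red_pole_of_nonInt hℓ hℓM A hA h P (typeInf_nonInt hP)
  refine ⟨hQ0, ?_⟩
  obtain ⟨m, rfl⟩ := hpM
  haveI : NeZero m := ⟨fun hm => NeZero.ne (p * m) (by rw [hm, mul_zero])⟩
  haveI : IsAlgClosed (IsLocalRing.ResidueField A) :=
    Fermat.Agent.Lib.FF.CharP.isAlgClosed_residueField A
  have hNk : ((p * m : ℕ) : IsLocalRing.ResidueField A) ≠ 0 :=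
    Fermat.Agent.ESJ.natCast_residue_ne_zero' A hℓ hA (p * m) hℓM
  have hπ := Fermat.Agent.ESJ.residue_eq_zero_of_not_isUnit' A
  have hsurj : Function.Surjective (IsLocalRing.residue A) := IsLocalRing.residue_surjective
  have hr : IsPlaceReductionAlong A (IsLocalRing.residue A) (p * m) (placeReductionModL h) :=
    isPlaceReductionModL_placeReductionModL h
  obtain ⟨D0⟩ := Fermat.Agent.S28.ModEqX.exists_modEqData p hp
  have eJb : jbar (IsLocalRing.ResidueField A) (p * m) 1 (one_dvd (p * m)) =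
      Jbar (IsLocalRing.ResidueField A) (p * m) := Subtype.ext (qExpand_one_apply _)
  have eJpb : jbar (IsLocalRing.ResidueField A) (p * m) p (Dvd.intro m rfl) =
      Jdk (IsLocalRing.ResidueField A) (p * m) (dvd_mul_right p m) :=
    Subtype.ext (TD.Jd_eq (IsLocalRing.ResidueField A) p).symm
  rw [eJb] at hQ0
  rw [eJb, eJpb]
  rcases hP with ⟨hP1, hP2⟩ | ⟨b, a, hb, hxb, hxa, hval⟩
  · exact unit_of_sub_one_pos p m hp (Char0Bridge.modEqDataToTD D0) hπ hsurj hNk hr P hQ0
      (sub_one_pos_of_typeInf p m hp P hP1 hP2)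
  · exact cusp_unit p m hp (Char0Bridge.modEqDataToTD D0) hπ hsurj hNk hr P b a hb hxb hxa hQ0
      hval

end final

end

end Fermat.Agent.S15P.M3.Cusp9
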