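/-
S15 (G2), helper9: adapters from level `p` to level `p q` along `α = heckeAlphaBar ℚ̄ p q`.

A place `R` of `F_{pq}` whose restriction to `F_p` is a point over `(b, a)`, `b ∉ A`, resp. a cusp,
has the same type at `p` (in the vocabulary of `S15P/M6/Defs`); hence the reduction statements of
`Cusp9/CuspCase` apply to it.

* `typeZero_of_restrict_point`, `typeZero_of_restrict_cusp`,
  `typeInf_of_restrict_point`, `typeInf_of_restrict_cusp` : the type of `R` from the type of
  `R ∣ F_p`;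
* `red_dvd_of_restrict` : every place `R` over a point `x` of `X₀(p)` with `j(x) = b ∉ A`,
  `|j_p(x) / b^p| < 1` reduces to a pole of `j̄` of order divisible by `p` (the hypothesis `hX`
  of route R-A of (G2)), for `p q ≠ 0` in the residue field;
* `red_dvd_of_restrict_cusp` : the same for `R` over a cusp of type `0` of `X₀(p)`.
-/
import Mathlib
import Fermat.Agent.ESJ.LevelDesc.BaseChange
import Fermat.Agent.S15P.M3.Cusp9.CuspCase

set_option autoImplicit false
set_option synthInstance.maxHeartbeats 400000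
set_option linter.unusedSectionVars false
set_option linter.style.haveILetI false

namespace Fermat.Agent.S15P.M3.Cusp9

open ModularCurve AlgebraicCurve Fermat.Agent.S24 Fermat.Agent.S28 Fermat.Agent.Lib.Red
open Fermat.Agent.S28.ModEq Fermat.Agent.CAR.Ell.FrickeRed Fermat.Agent.Lib.FF.ModL
open Fermat.Agent.ESJ.HeckeInputs Fermat.Agent.S15P.M6

noncomputable section

section transport

variable (p m : ℕ) [NeZero p] [NeZero m]

/-- `ord_R (α g) = e(R) * ord_{R ∣ F_p} g` with `e(R) > 0`. -/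
theorem ord_alpha_eq (R : Place KQ (FN (p * m))) :
    ∃ e : ℤ, 0 < e ∧ ∀ g : FN p, R.ord (heckeAlphaBar KQ p m g) =
      e * (R.restrictAlong (heckeAlphaBar KQ p m) (heckeAlphaBarIntegral p m)).ord g :=
  ⟨(Place.ramificationIndexAlong (heckeAlphaBar KQ p m) R : ℤ),
    Nat.cast_pos.mpr (Fermat.Agent.ESJ.LevelDesc.ramificationIndexAlong_pos _
      (heckeAlphaBarIntegral p m) R),
    fun g => Place.ord_restrictAlong (heckeAlphaBar KQ p m) (heckeAlphaBarIntegral p m) R g⟩

/-- A value of `j(q^d)` at `R ∣ F_p` is a value at `R`. -/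
theorem ord_alpha_sub_pos (d : Dv p) (R : Place KQ (FN (p * m))) (c : KQ)
    (hR : 0 < (R.restrictAlong (heckeAlphaBar KQ p m) (heckeAlphaBarIntegral p m)).ord
      (jFormal p d - algebraMap KQ (FN p) c)) :
    0 < R.ord (jFormal (p * m) ⟨d.1, Dvd.dvd.mul_right d.2 m⟩ - algebraMap KQ (FN (p * m)) c) := by
  obtain ⟨e, he, hord⟩ := ord_alpha_eq p m R
  have e1 : jFormal (p * m) ⟨d.1, Dvd.dvd.mul_right d.2 m⟩ - algebraMap KQ (FN (p * m)) c =
      heckeAlphaBar KQ p m (jFormal p d - algebraMap KQ (FN p) c) := by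
    rw [map_sub, alpha_jFormal, AlgHom.commutes]
  rw [e1, hord]
  exact mul_pos he hR

/-- The order of `j(q^d)` at `R` and at `R ∣ F_p`. -/
theorem ord_alpha_jFormal (R : Place KQ (FN (p * m))) :
    ∃ e : ℤ, 0 < e ∧ ∀ d : Dv p, R.ord (jFormal (p * m) ⟨d.1, Dvd.dvd.mul_right d.2 m⟩) =
      e * (R.restrictAlong (heckeAlphaBar KQ p m) (heckeAlphaBarIntegral p m)).ord
        (jFormal p d) := by
  obtain ⟨e, he, hord⟩ := ord_alpha_eq p m R
  exact ⟨e, he, fun d => by rw [← alpha_jFormal, hord]⟩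

end transport

section types

variable {p q : ℕ} [NeZero p] [NeZero q] [NeZero (p * q)] (A : ValuationSubring KQ)

/-- A place over a point of type `0` of `X₀(p)` is of type `0`. -/
theorem typeZero_of_restrict_point (x : Place KQ (FN p)) (b a : KQ) (hb : b ∉ A)
    (hu : A.valuation (a / b ^ p) < 1)
    (hxb : 0 < x.ord (jBar p - algebraMap KQ (FN p) b))
    (hxa : 0 < x.ord (jFormal p ⟨p, dvd_rfl⟩ - algebraMap KQ (FN p) a))
    (R : Place KQ (FN (p * q)))
    (hR : R.restrictAlong (heckeAlphaBar KQ p q) (heckeAlphaBarIntegral p q) = x) :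
    TypeZero A (dvd_mul_right p q) R := by
  subst hR
  exact Or.inr ⟨b, a, hb, ord_alpha_sub_pos p q ⟨1, one_dvd p⟩ R b hxb,
    ord_alpha_sub_pos p q ⟨p, dvd_rfl⟩ R a hxa, hu⟩

/-- A place over a point of type `∞` of `X₀(p)` is of type `∞`. -/
theorem typeInf_of_restrict_point (x : Place KQ (FN p)) (b a : KQ) (hb : b ∉ A)
    (hu : A.valuation (a / b ^ p) = 1)
    (hxb : 0 < x.ord (jBar p - algebraMap KQ (FN p) b))
    (hxa : 0 < x.ord (jFormal p ⟨p, dvd_rfl⟩ - algebraMap KQ (FN p) a))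
    (R : Place KQ (FN (p * q)))
    (hR : R.restrictAlong (heckeAlphaBar KQ p q) (heckeAlphaBarIntegral p q) = x) :
    TypeInf A (dvd_mul_right p q) R := by
  subst hR
  exact Or.inr ⟨b, a, hb, ord_alpha_sub_pos p q ⟨1, one_dvd p⟩ R b hxb,
    ord_alpha_sub_pos p q ⟨p, dvd_rfl⟩ R a hxa, hu⟩

/-- A place over a cusp of type `0` of `X₀(p)` is of type `0`. -/
theorem typeZero_of_restrict_cusp (P0 : Place KQ (FN p)) (hP0 : P0.ord (jBar p) < 0)
    (hT : P0.ord (jBar p) = p * P0.ord (jFormal p ⟨p, dvd_rfl⟩))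
    (R : Place KQ (FN (p * q)))
    (hR : R.restrictAlong (heckeAlphaBar KQ p q) (heckeAlphaBarIntegral p q) = P0) :
    TypeZero A (dvd_mul_right p q) R := by
  subst hR
  obtain ⟨e, he, hord⟩ := ord_alpha_jFormal p q R
  have h1 := hord ⟨1, one_dvd p⟩
  have h2 := hord ⟨p, dvd_rfl⟩
  refine Or.inl ⟨?_, ?_⟩
  · show R.ord (jFormal (p * q) ⟨1, _⟩) < 0
    rw [h1]
    exact mul_neg_of_pos_of_neg he hP0
  · show R.ord (jFormal (p * q) ⟨1, _⟩) = p * R.ord (jFormal (p * q) ⟨p, _⟩)
    rw [h1, h2]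
    have hT' : (R.restrictAlong (heckeAlphaBar KQ p q) (heckeAlphaBarIntegral p q)).ord
        (jFormal p ⟨1, one_dvd p⟩) = p * (R.restrictAlong (heckeAlphaBar KQ p q)
          (heckeAlphaBarIntegral p q)).ord (jFormal p ⟨p, dvd_rfl⟩) := hT
    rw [hT']
    ring

/-- A place over a cusp of type `∞` of `X₀(p)` is of type `∞`. -/
theorem typeInf_of_restrict_cusp (P0 : Place KQ (FN p)) (hP0 : P0.ord (jBar p) < 0)
    (hT : P0.ord (jFormal p ⟨p, dvd_rfl⟩) = p * P0.ord (jBar p))
    (R : Place KQ (FN (p * q)))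
    (hR : R.restrictAlong (heckeAlphaBar KQ p q) (heckeAlphaBarIntegral p q) = P0) :
    TypeInf A (dvd_mul_right p q) R := by
  subst hR
  obtain ⟨e, he, hord⟩ := ord_alpha_jFormal p q R
  have h1 := hord ⟨1, one_dvd p⟩
  have h2 := hord ⟨p, dvd_rfl⟩
  refine Or.inl ⟨?_, ?_⟩
  · show R.ord (jFormal (p * q) ⟨1, _⟩) < 0
    rw [h1]
    exact mul_neg_of_pos_of_neg he hP0
  · show R.ord (jFormal (p * q) ⟨p, _⟩) = p * R.ord (jFormal (p * q) ⟨1, _⟩)
    rw [h1, h2]
    have hT' : (R.restrictAlong (heckeAlphaBar KQ p q) (heckeAlphaBarIntegral p q)).ord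
        (jFormal p ⟨p, dvd_rfl⟩) = p * (R.restrictAlong (heckeAlphaBar KQ p q)
          (heckeAlphaBarIntegral p q)).ord (jFormal p ⟨1, one_dvd p⟩) := hT
    rw [hT']
    ring

end types

section red

variable {p q : ℕ} [NeZero p] [NeZero q] [NeZero (p * q)] (hp : p.Prime)
  (A : ValuationSubring KQ)
  (hMk : ((p * q : ℕ) : IsLocalRing.ResidueField A) ≠ 0)
  (h : ReductionInputsModL A (p * q))

include hp hMk in
/-- **A place of type `0` at level `p q` reduces to a pole of `j̄` of order divisible by `p`**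
(hypothesis `p q ≠ 0` in the residue field; no prime `ℓ` in the statement). -/
theorem red_dvd_of_typeZero (R : Place KQ (FN (p * q)))
    (hR : TypeZero A (dvd_mul_right p q) R) :
    (placeReductionModL h R).ord (Jbar (IsLocalRing.ResidueField A) (p * q)) < 0 ∧
      (p : ℤ) ∣ (placeReductionModL h R).ord (Jbar (IsLocalRing.ResidueField A) (p * q)) := by
  haveI : IsAlgClosed (IsLocalRing.ResidueField A) :=
    Fermat.Agent.Lib.FF.CharP.isAlgClosed_residueField A
  have hπ := Fermat.Agent.ESJ.residue_eq_zero_of_not_isUnit' A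
  have hsurj : Function.Surjective (IsLocalRing.residue A) := IsLocalRing.residue_surjective
  have hr : IsPlaceReductionAlong A (IsLocalRing.residue A) (p * q) (placeReductionModL h) :=
    isPlaceReductionModL_placeReductionModL h
  obtain ⟨D0⟩ := Fermat.Agent.S28.ModEqX.exists_modEqData p hp
  rcases hR with ⟨hP1, hP2⟩ | ⟨b, a, hb, hxb, hxa, hval⟩
  · have hQ := red_neg_of_pole hπ hsurj hMk hr R hP1
    exact ⟨hQ, ⟨_, zero_of_pos p q hp (Char0Bridge.modEqDataToTD D0) hπ hsurj hMk hr R hQ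
      (pos_of_typeZero p q hp R hP1 hP2)⟩⟩
  · have hQ := red_neg_of_nonint hπ hsurj hMk hr R b hb hxb
    exact ⟨hQ, ⟨_, cusp_zero p q hp (Char0Bridge.modEqDataToTD D0) hπ hsurj hMk hr R b a hb hxb
      hxa hQ hval⟩⟩

include hp hMk in
/-- **The hypothesis `hX` of route R-A of (G2)**: every place of `X₀(p q)` over a point `x` of
`X₀(p)` with `j(x) = b ∉ A`, `|j_p(x) / b^p| < 1` reduces to a pole of `j̄` of order divisible
by `p`. -/
theorem red_dvd_of_restrict (x : Place KQ (FN p)) (b a : KQ) (hb : b ∉ A)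
    (hu : A.valuation (a / b ^ p) < 1)
    (hxb : 0 < x.ord (jBar p - algebraMap KQ (FN p) b))
    (hxa : 0 < x.ord (jFormal p ⟨p, dvd_rfl⟩ - algebraMap KQ (FN p) a))
    (R : Place KQ (FN (p * q)))
    (hR : R.restrictAlong (heckeAlphaBar KQ p q) (heckeAlphaBarIntegral p q) = x) :
    (placeReductionModL h R).ord (Jbar (IsLocalRing.ResidueField A) (p * q)) < 0 ∧
      (p : ℤ) ∣ (placeReductionModL h R).ord (Jbar (IsLocalRing.ResidueField A) (p * q)) :=
  red_dvd_of_typeZero hp A hMk h R (typeZero_of_restrict_point A x b a hb hu hxb hxa R hR)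

include hp hMk in
/-- The same for the places over a cusp of type `0` of `X₀(p)`. -/
theorem red_dvd_of_restrict_cusp (P0 : Place KQ (FN p)) (hP0 : P0.ord (jBar p) < 0)
    (hT : P0.ord (jBar p) = p * P0.ord (jFormal p ⟨p, dvd_rfl⟩))
    (R : Place KQ (FN (p * q)))
    (hR : R.restrictAlong (heckeAlphaBar KQ p q) (heckeAlphaBarIntegral p q) = P0) :
    (placeReductionModL h R).ord (Jbar (IsLocalRing.ResidueField A) (p * q)) < 0 ∧
      (p : ℤ) ∣ (placeReductionModL h R).ord (Jbar (IsLocalRing.ResidueField A) (p * q)) :=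
  red_dvd_of_typeZero hp A hMk h R (typeZero_of_restrict_cusp A P0 hP0 hT R hR)

end red

end

end Fermat.Agent.S15P.M3.Cusp9
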